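/-
GATE-R (S17) / node GR-W-RATREP (helper19): **the canonical reduced representative of a divisor
class relative to a place `P` of degree one, and its Galois stability.**

For a function field `F / K` (Riemann–Roch package `FiniteResidues`, `HasPrincipalDivisors`) and a
place `P` of degree one, every class `c ∈ Pic⁰(F)` is `[E - n P]` for a canonical pair
`(n, E) = (repDeg P c, repDiv P c)`: `n` is the least integer with `L(D + n P) ≠ 0` (`D` any
divisor in `c`) and `E ≥ 0` is the unique effective divisor in the class of `D + n P`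
(`RR/EffRep`, helper66).  Here:

* `repDeg_le_genus`       : `n ≤ genusFF K F` (Riemann's inequality, `ℓ(0) = 1`);
* `repDiv_nonneg`, `degree_repDiv`, `mk_repDiv` : `E ≥ 0`, `deg E = n`, `c = [E - n P]`;
* `repDeg_le_of_effective`, `eq_repDiv_of_effective` : minimality of `n`, uniqueness of `E`;
* `repDeg_smul`, `repDiv_smul` : equivariance under every semilinear automorphism fixing `P`;
* `smul_repDiv_of_fixed`   : `g • c = c`, `g • P = P` ⟹ `g • E = E`;
* `exists_stable_rep`      : the packaged existence statement;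
* for `F = ℚ̄(X₀(N))`, `P = cuspInf N` the `q`-place (`GJ/Desc/QPlace`, Galois-fixed, degree one):
  **`exists_rational_effective_rep`** : every `G_ℚ`-fixed class of `J₀(N)(ℚ̄)` is `[E - n ∞]` with
  `E ≥ 0` Galois-stable of degree `n ≤ g` (= W1 RATREP of helper20's GATE-R graph 4570).
-/
import Fermat.Agent.RR.EffRep
import Fermat.Agent.RR.ModularBar
import Fermat.Agent.GK.GenusFF
import Fermat.Agent.GJ.Desc.Modular

set_option autoImplicit false

noncomputable section

open AlgebraicCurve ModularCurve

namespace Fermat.Agent.GR.W.RatRep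

open Fermat.Agent.RRh45 Fermat.Agent.RR Fermat.Agent.RR.EffRep Fermat.Agent.RR.Bound
  Fermat.Agent.S24

section Abstract

variable {K F : Type*} [Field K] [Field F] [Algebra K F]

/-! ### Semilinear automorphisms as permutations of the places -/

/-- the permutation of the places induced by a semilinear automorphism -/
def placePerm (g : SemilinearAut K F) : Place K F ≃ Place K F := MulAction.toPerm g

theorem placePerm_apply (g : SemilinearAut K F) (v : Place K F) : placePerm g v = g • v := rfl

theorem act_placePerm (g : SemilinearAut K F) (D : Divisor K F) :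
    act (placePerm g) D = g • D := by
  rw [SemilinearAut.divisor_smul_def]
  exact Finsupp.equivMapDomain_eq_mapDomain _ _

theorem smul_mem_principal_iff (g : SemilinearAut K F) (D : Divisor K F) :
    D ∈ Divisor.principal (K := K) (F := F) ↔ g • D ∈ Divisor.principal (K := K) (F := F) := by
  refine ⟨SemilinearAut.smul_mem_principal g, fun h => ?_⟩
  have := SemilinearAut.smul_mem_principal g⁻¹ h
  rwa [inv_smul_smul] at this

theorem smul_nonneg (g : SemilinearAut K F) {D : Divisor K F} (hD : 0 ≤ D) : 0 ≤ g • D := by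
  rw [← act_placePerm]
  exact act_nonneg _ hD

/-! ### Classes -/

/-- two degree-zero divisors have the same class iff they differ by a principal divisor -/
theorem mk_eq_mk_iff (D D' : Divisor.degZero (K := K) (F := F)) :
    Pic0.mk D = Pic0.mk D' ↔
      (D' : Divisor K F) - (D : Divisor K F) ∈ Divisor.principal (K := K) (F := F) := by
  unfold Pic0.mk
  rw [QuotientAddGroup.eq, AddSubgroup.mem_addSubgroupOf]
  have : ((-D + D' : Divisor.degZero (K := K) (F := F)) : Divisor K F)
      = (D' : Divisor K F) - (D : Divisor K F) := by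
    rw [AddSubgroup.coe_add, AddSubgroup.coe_neg]
    abel
  rw [this]

/-- a chosen divisor in the class `c` -/
def repOut (c : Pic0 K F) : Divisor.degZero (K := K) (F := F) :=
  (Pic0.mk_surjective c).choose

theorem mk_repOut (c : Pic0 K F) : Pic0.mk (repOut c) = c := (Pic0.mk_surjective c).choose_spec

theorem degree_repOut (c : Pic0 K F) : Divisor.degree ((repOut c : Divisor K F)) = 0 :=
  Divisor.mem_degZero.mp (repOut c).2

theorem repOut_mk_sub (D : Divisor.degZero (K := K) (F := F)) :
    ((repOut (Pic0.mk D) : Divisor K F)) - (D : Divisor K F)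
      ∈ Divisor.principal (K := K) (F := F) :=
  (mk_eq_mk_iff D (repOut (Pic0.mk D))).mp (mk_repOut (Pic0.mk D)).symm

variable [FiniteResidues K F] [HasPrincipalDivisors K F]

/-! ### The canonical reduced representative -/

/-- the integer `n` of the reduced representative, as an integer -/
def repDegZ (P : Place K F) (c : Pic0 K F) : ℤ := minTwist (repOut c : Divisor K F) P

/-- **the effective part `E` of the reduced representative `E - n P` of the class `c`** -/
def repDiv (P : Place K F) (c : Pic0 K F) : Divisor K F := effRep (repOut c : Divisor K F) P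

/-- **the degree `n` of the reduced representative** -/
def repDeg (P : Place K F) (c : Pic0 K F) : ℕ := (repDegZ P c).toNat

theorem repDegZ_mk (P : Place K F) (D : Divisor.degZero (K := K) (F := F)) :
    repDegZ P (Pic0.mk D) = minTwist (D : Divisor K F) P :=
  minTwist_eq_of_principal P (repOut_mk_sub D)

theorem repDiv_mk (P : Place K F) (hP : P.deg = 1) (D : Divisor.degZero (K := K) (F := F)) :
    repDiv P (Pic0.mk D) = effRep (D : Divisor K F) P :=
  effRep_eq_of_principal P hP (repOut_mk_sub D)

theorem repDiv_nonneg (P : Place K F) (c : Pic0 K F) : 0 ≤ repDiv P c := effRep_nonneg _ P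

theorem degree_repDiv_Z (P : Place K F) (hP : P.deg = 1) (c : Pic0 K F) :
    Divisor.degree (repDiv P c) = repDegZ P c := by
  unfold repDiv repDegZ
  rw [degree_effRep, degree_repOut, hP]
  simp

theorem repDegZ_nonneg (P : Place K F) (hP : P.deg = 1) (c : Pic0 K F) : 0 ≤ repDegZ P c := by
  rw [← degree_repDiv_Z P hP c]
  exact degree_nonneg_of_nonneg (repDiv_nonneg P c)

theorem coe_repDeg (P : Place K F) (hP : P.deg = 1) (c : Pic0 K F) :
    (repDeg P c : ℤ) = repDegZ P c :=
  Int.toNat_of_nonneg (repDegZ_nonneg P hP c)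

/-- `deg E = n` -/
theorem degree_repDiv (P : Place K F) (hP : P.deg = 1) (c : Pic0 K F) :
    Divisor.degree (repDiv P c) = repDeg P c := by
  rw [degree_repDiv_Z P hP c, coe_repDeg P hP c]

theorem repDiv_sub_mem_degZero (P : Place K F) (hP : P.deg = 1) (c : Pic0 K F) :
    repDiv P c - Finsupp.single P (repDeg P c : ℤ) ∈ Divisor.degZero (K := K) (F := F) := by
  rw [Divisor.mem_degZero, map_sub, degree_repDiv P hP c, Divisor.degree_single, hP]
  simp

/-- **`c = [E - n P]`** -/
theorem mk_repDiv (P : Place K F) (hP : P.deg = 1) (c : Pic0 K F) :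
    Pic0.mk ⟨repDiv P c - Finsupp.single P (repDeg P c : ℤ), repDiv_sub_mem_degZero P hP c⟩ = c := by
  conv_rhs => rw [← mk_repOut c]
  rw [mk_eq_mk_iff]
  have h := effRep_sub_mem_principal (repOut c : Divisor K F) P
  have e : ((repOut c : Divisor K F)) - (repDiv P c - Finsupp.single P (repDeg P c : ℤ))
      = -(effRep (repOut c : Divisor K F) P
          - tw (repOut c : Divisor K F) P (minTwist (repOut c : Divisor K F) P)) := by
    rw [coe_repDeg P hP c]
    unfold repDiv repDegZ tw
    abel
  show ((repOut c : Divisor K F)) - (repDiv P c - Finsupp.single P (repDeg P c : ℤ)) ∈ _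
  rw [e]
  exact AddSubgroup.neg_mem _ h

/-- **minimality of `n`** : if `c = [E' - m P]` with `E' ≥ 0` then `n ≤ m` -/
theorem repDegZ_le_of_effective (P : Place K F) (c : Pic0 K F) {E' : Divisor K F} {m : ℤ}
    (hE' : 0 ≤ E') (h : E' - Finsupp.single P m ∈ Divisor.degZero (K := K) (F := F))
    (hc : c = Pic0.mk ⟨E' - Finsupp.single P m, h⟩) : repDegZ P c ≤ m := by
  refine minTwist_le_of_effective _ P hE' ?_
  have h1 : Pic0.mk (repOut c) = Pic0.mk ⟨E' - Finsupp.single P m, h⟩ := (mk_repOut c).trans hc
  have h2 := (mk_eq_mk_iff _ _).mp h1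
  have e : E' - tw (repOut c : Divisor K F) P m
      = (E' - Finsupp.single P m) - (repOut c : Divisor K F) := by
    unfold tw
    abel
  rw [e]
  exact h2

theorem repDeg_le_of_effective (P : Place K F) (hP : P.deg = 1) (c : Pic0 K F)
    {E' : Divisor K F} {m : ℕ} (hE' : 0 ≤ E')
    (h : E' - Finsupp.single P (m : ℤ) ∈ Divisor.degZero (K := K) (F := F))
    (hc : c = Pic0.mk ⟨E' - Finsupp.single P (m : ℤ), h⟩) : repDeg P c ≤ m := by
  have := repDegZ_le_of_effective P c hE' h hc
  rw [← coe_repDeg P hP c] at this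
  exact_mod_cast this

/-- **uniqueness of `E`** : if `c = [E' - n P]` with `E' ≥ 0` and `n = repDeg P c` then
`E' = repDiv P c` -/
theorem eq_repDiv_of_effective (P : Place K F) (hP : P.deg = 1) (c : Pic0 K F)
    {E' : Divisor K F} (hE' : 0 ≤ E')
    (h : E' - Finsupp.single P (repDeg P c : ℤ) ∈ Divisor.degZero (K := K) (F := F))
    (hc : c = Pic0.mk ⟨E' - Finsupp.single P (repDeg P c : ℤ), h⟩) : E' = repDiv P c := by
  refine eq_effRep_of_effective _ P hP hE' ?_
  have h1 : Pic0.mk (repOut c) = Pic0.mk ⟨E' - Finsupp.single P (repDeg P c : ℤ), h⟩ :=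
    (mk_repOut c).trans hc
  have h2 := (mk_eq_mk_iff _ _).mp h1
  have e : E' - tw (repOut c : Divisor K F) P (minTwist (repOut c : Divisor K F) P)
      = (E' - Finsupp.single P (repDeg P c : ℤ)) - (repOut c : Divisor K F) := by
    rw [coe_repDeg P hP c]
    unfold repDegZ tw
    abel
  rw [e]
  exact h2

/-! ### Equivariance -/

omit [FiniteResidues K F] [HasPrincipalDivisors K F] in
theorem smul_mk (g : SemilinearAut K F) (D : Divisor.degZero (K := K) (F := F)) :
    g • Pic0.mk D = Pic0.mk ⟨g • (D : Divisor K F), SemilinearAut.smul_mem_degZero g D.2⟩ :=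
  SemilinearAut.pic0_smul_mk g D

theorem repDegZ_smul (g : SemilinearAut K F) (P : Place K F) (hgP : g • P = P) (c : Pic0 K F) :
    repDegZ P (g • c) = repDegZ P c := by
  conv_lhs => rw [← mk_repOut c, smul_mk, repDegZ_mk]
  show minTwist (g • (repOut c : Divisor K F)) P = minTwist (repOut c : Divisor K F) P
  rw [← act_placePerm]
  exact minTwist_act (placePerm g) P hgP
    (fun D => by rw [act_placePerm]; exact smul_mem_principal_iff g D) _

theorem repDeg_smul (g : SemilinearAut K F) (P : Place K F) (hgP : g • P = P) (c : Pic0 K F) :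
    repDeg P (g • c) = repDeg P c := by
  unfold repDeg
  rw [repDegZ_smul g P hgP c]

/-- **equivariance of the reduced representative** under a semilinear automorphism fixing `P` -/
theorem repDiv_smul (g : SemilinearAut K F) (P : Place K F) (hP : P.deg = 1) (hgP : g • P = P)
    (c : Pic0 K F) : repDiv P (g • c) = g • repDiv P c := by
  conv_lhs => rw [← mk_repOut c, smul_mk, repDiv_mk P hP]
  show effRep (g • (repOut c : Divisor K F)) P = g • effRep (repOut c : Divisor K F) P
  rw [← act_placePerm, ← act_placePerm]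
  exact effRep_act (placePerm g) P hP hgP
    (fun D => by rw [act_placePerm]; exact smul_mem_principal_iff g D) _

/-- **a fixed class has a stable reduced representative** -/
theorem smul_repDiv_of_fixed (g : SemilinearAut K F) (P : Place K F) (hP : P.deg = 1)
    (hgP : g • P = P) {c : Pic0 K F} (hc : g • c = c) : g • repDiv P c = repDiv P c := by
  rw [← repDiv_smul g P hP hgP c, hc]

/-! ### The bound `n ≤ g` -/

/-- **`n ≤ genusFF K F`** (Riemann's inequality), when `ℓ(0) = 1` -/
theorem repDeg_le_genus [Nonempty (Place K F)]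
    (h0 : Module.finrank K (riemannRochSpace (0 : Divisor K F)) = 1)
    (P : Place K F) (hP : P.deg = 1) (c : Pic0 K F) : repDeg P c ≤ genusFF K F := by
  have hne : riemannRochSpace (tw (repOut c : Divisor K F) P (genusFF K F : ℤ)) ≠ ⊥ := by
    intro hbot
    have h := riemann_inequality (K := K) (F := F)
      (tw (repOut c : Divisor K F) P (genusFF K F : ℤ))
    rw [hbot, finrank_bot, degree_tw, degree_repOut, hP, h0] at h
    push_cast at h
    linarith
  have := minTwist_le (repOut c : Divisor K F) P hne
  have h2 : (repDeg P c : ℤ) ≤ (genusFF K F : ℤ) := by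
    rw [coe_repDeg P hP c]
    exact this
  exact_mod_cast h2

/-- **packaged existence**: every class is `[E - n P]` with `n ≤ g`, `E ≥ 0` of degree `n`, and
`E` is fixed by every semilinear automorphism fixing `P` and the class. -/
theorem exists_stable_rep [Nonempty (Place K F)]
    (h0 : Module.finrank K (riemannRochSpace (0 : Divisor K F)) = 1)
    (P : Place K F) (hP : P.deg = 1) (c : Pic0 K F) :
    ∃ n : ℕ, n ≤ genusFF K F ∧ ∃ E : Divisor K F, 0 ≤ E ∧ Divisor.degree E = n ∧
      (∀ g : SemilinearAut K F, g • P = P → g • c = c → g • E = E) ∧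
      ∃ h : E - Finsupp.single P (n : ℤ) ∈ Divisor.degZero (K := K) (F := F),
        c = Pic0.mk ⟨E - Finsupp.single P (n : ℤ), h⟩ :=
  ⟨repDeg P c, repDeg_le_genus h0 P hP c, repDiv P c, repDiv_nonneg P c, degree_repDiv P hP c,
    fun g hgP hc => smul_repDiv_of_fixed g P hP hgP hc,
    repDiv_sub_mem_degZero P hP c, (mk_repDiv P hP c).symm⟩

end Abstract

/-! ### The instance `J₀(N)`, `P = ∞` (the `q`-place) -/

section Modular

local notation "Qb" => AlgebraicClosure ℚ
local notation "GQ" => (AlgebraicClosure ℚ ≃ₐ[ℚ] AlgebraicClosure ℚ)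

variable (N : ℕ) [NeZero N]

/-- **the cusp `∞` of `X₀(N)`**: the `q`-adic place of `ℚ̄(X₀(N)) ⊆ ℚ̄((q))` -/
def cuspInf : Place Qb ↥(modularFunctionFieldBar N) :=
  Fermat.Agent.GJ.Desc.qPlace Qb (modularFunctionFieldFull N)
    (Fermat.Agent.GJ.Desc.Modular.exists_order_ne_zero N)

/-- `∞` has degree one -/
theorem deg_cuspInf : (cuspInf N).deg = 1 := ModularBar.deg_eq_one N _

/-- `∞` is fixed by the arithmetic Galois action -/
theorem galois_smul_cuspInf (σ : GQ) :
    arithmeticGalois (modularFunctionFieldFull N) σ • cuspInf N = cuspInf N :=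
  Fermat.Agent.GJ.Desc.arithmeticGalois_smul_qPlace Qb (modularFunctionFieldFull N)
    (Fermat.Agent.GJ.Desc.Modular.exists_order_ne_zero N) σ

/-- `ℓ(0) = 1` for `ℚ̄(X₀(N))` -/
theorem finrank_L_zero :
    Module.finrank Qb (riemannRochSpace (0 : Divisor Qb ↥(modularFunctionFieldBar N))) = 1 :=
  have := ModularBar.isGen_jF N
  Fermat.Agent.GK.GenusFF.finrank_L_zero_eq_one (K := Qb) (jF N)

/-- **W1 RATREP.**  Every `G_ℚ`-fixed class `c` of `J₀(N)(ℚ̄)` is `[E - n ∞]` with `E ≥ 0` of degree
`n ≤ g`, and `E` is stable under the arithmetic Galois action. -/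
theorem exists_rational_effective_rep (c : JZero N) (hc : ∀ σ : GQ, σ • c = c) :
    ∃ n : ℕ, n ≤ genusFF Qb ↥(modularFunctionFieldBar N) ∧
      ∃ E : Divisor Qb ↥(modularFunctionFieldBar N), 0 ≤ E ∧ Divisor.degree E = n ∧
        (∀ σ : GQ, arithmeticGalois (modularFunctionFieldFull N) σ • E = E) ∧
        ∃ h : E - Finsupp.single (cuspInf N) (n : ℤ)
            ∈ Divisor.degZero (K := Qb) (F := ↥(modularFunctionFieldBar N)),
          c = Pic0.mk ⟨E - Finsupp.single (cuspInf N) (n : ℤ), h⟩ := by
  have := ModularBar.finiteResidues N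
  have := ModularBar.hasPrincipalDivisors N
  have := ModularBar.nonempty_place N
  obtain ⟨n, hn, E, hE, hdeg, hstab, h, hcE⟩ :=
    exists_stable_rep (finrank_L_zero N) (cuspInf N) (deg_cuspInf N) c
  exact ⟨n, hn, E, hE, hdeg, fun σ => hstab _ (galois_smul_cuspInf N σ) (hc σ), h, hcE⟩

/-- the same for a member of the frozen subgroup `FixedPoints.addSubgroup G_ℚ (J₀(N))` of S17 -/
theorem exists_rational_effective_rep_of_mem
    (c : ↥(FixedPoints.addSubgroup GQ (JZero N))) :
    ∃ n : ℕ, n ≤ genusFF Qb ↥(modularFunctionFieldBar N) ∧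
      ∃ E : Divisor Qb ↥(modularFunctionFieldBar N), 0 ≤ E ∧ Divisor.degree E = n ∧
        (∀ σ : GQ, arithmeticGalois (modularFunctionFieldFull N) σ • E = E) ∧
        ∃ h : E - Finsupp.single (cuspInf N) (n : ℤ)
            ∈ Divisor.degZero (K := Qb) (F := ↥(modularFunctionFieldBar N)),
          (c : JZero N) = Pic0.mk ⟨E - Finsupp.single (cuspInf N) (n : ℤ), h⟩ :=
  exists_rational_effective_rep N (c : JZero N) (fun σ => c.2 σ)

end Modular

end Fermat.Agent.GR.W.RatRep
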