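/-
GATE-R W4 leaf (helper22): multi-variable Hensel over a valuation subring of an algebraically
closed field, by a purely algebraic argument (standard smooth ⟹ flat ⟹ going down).
Mathlib only.
-/
import Mathlib

set_option autoImplicit false

namespace Fermat.Agent.GR.MvHensel

open IsLocalRing MvPolynomial

section SectionLemma

variable {K : Type*} [Field K] [IsAlgClosed K] (A : ValuationSubring K)
variable {S : Type*} [CommRing S] [Algebra A S]

/-- **Section lemma** (`A` is "strictly henselian" in the étale sense).  Let `A` be a valuation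
subring of an algebraically closed field, `S` a flat, formally unramified `A`-algebra of finite
type and `𝔫` a prime of `S` containing the image of `𝔪_A`.  Then there is an `A`-algebra section
`s : S → A` with `𝔫 ≤ s⁻¹(𝔪_A)`. -/
theorem exists_section [Algebra.FiniteType A S] [Module.Flat A S]
    [Algebra.FormallyUnramified A S]
    (𝔫 : Ideal S) [h𝔫p : 𝔫.IsPrime] (h𝔫 : maximalIdeal A ≤ 𝔫.comap (algebraMap A S)) :
    ∃ s : S →ₐ[A] A, 𝔫 ≤ (maximalIdeal A).comap (s : S →+* A) := by
  classical
  -- going down: a prime `P ≤ 𝔫` over `(0)`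
  have : (𝔫.under A).IsPrime := Ideal.IsPrime.under A 𝔫
  have : 𝔫.LiesOver (𝔫.under A) := ⟨rfl⟩
  obtain ⟨P, hP𝔫, hPp, hPo⟩ :=
    Ideal.exists_ideal_le_liesOver_of_le (p := (⊥ : Ideal A)) (q := 𝔫.under A) 𝔫 bot_le
  -- the domain `D = S ⧸ P` and its fraction field `L`
  let D := S ⧸ P
  let L := FractionRing D
  have hAD : Function.Injective (algebraMap A D) := by
    rw [injective_iff_map_eq_zero]
    intro a ha
    have : a ∈ P.under A := by
      rw [Ideal.under_def, Ideal.mem_comap]
      rw [IsScalarTower.algebraMap_apply A S D, Ideal.Quotient.algebraMap_eq,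
        Ideal.Quotient.eq_zero_iff_mem] at ha
      exact ha
    rw [← hPo.over] at this
    simpa using this
  have hAL : Function.Injective (algebraMap A L) := by
    rw [IsScalarTower.algebraMap_eq A D L]
    exact (IsFractionRing.injective D L).comp hAD
  let _ : Algebra K L := (IsFractionRing.lift hAL).toAlgebra
  have : IsScalarTower A K L := IsScalarTower.of_algebraMap_eq fun a => by
    rw [RingHom.algebraMap_toAlgebra]
    exact (IsFractionRing.lift_algebraMap hAL a).symm
  -- `L / K` is essentially of finite type and formally unramified, hence `L = K`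
  have : Algebra.FormallyUnramified A L := Algebra.FormallyUnramified.comp A D L
  have : Algebra.FormallyUnramified K L := Algebra.FormallyUnramified.of_restrictScalars A K L
  have : Algebra.EssFiniteType A L := Algebra.EssFiniteType.comp A D L
  have : Algebra.EssFiniteType K L := Algebra.EssFiniteType.of_comp A K L
  have : Algebra.IsSeparable K L := Algebra.FormallyUnramified.isSeparable K L
  have hbij : Function.Bijective (algebraMap K L) :=
    IsAlgClosed.algebraMap_bijective_of_isIntegral
  -- the resulting `A`-algebra map `ψ : S → K`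
  let e : K ≃ₐ[K] L := AlgEquiv.ofBijective (Algebra.ofId K L) hbij
  let φ : S →ₐ[A] L := (IsScalarTower.toAlgHom A D L).comp (Ideal.Quotient.mkₐ A P)
  let ψ : S →ₐ[A] K := ((e.symm.restrictScalars A : L →ₐ[A] K)).comp φ
  have hφ0 : ∀ y : S, φ y = 0 ↔ y ∈ P := by
    intro y
    have : φ y = algebraMap D L (Ideal.Quotient.mk P y) := rfl
    rw [this, map_eq_zero_iff _ (IsFractionRing.injective D L), Ideal.Quotient.eq_zero_iff_mem]
  have hψ0 : ∀ y : S, ψ y = 0 ↔ y ∈ P := by
    intro y
    have : ψ y = e.symm (φ y) := rfl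
    rw [this, map_eq_zero_iff _ e.symm.injective, hφ0]
  -- key: no element of `𝔫` is sent to `1`
  have key : ∀ y ∈ 𝔫, ψ y ≠ 1 := by
    intro y hy h1
    have : y - 1 ∈ P := by rw [← hψ0, map_sub, h1, map_one, sub_self]
    have h1𝔫 : (1 : S) ∈ 𝔫 := by
      have := 𝔫.sub_mem hy (hP𝔫 this)
      simpa using this
    exact h𝔫p.ne_top ((Ideal.eq_top_iff_one _).mpr h1𝔫)
  -- `ψ` takes values in `A`
  have hmem : ∀ y : S, ψ y ∈ A := by
    intro y
    by_contra hy
    have hinv : (ψ y)⁻¹ ∈ A := (A.mem_or_inv_mem (ψ y)).resolve_left hy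
    have hne : ψ y ≠ 0 := fun h0 => hy (h0 ▸ A.zero_mem)
    let t : A := ⟨(ψ y)⁻¹, hinv⟩
    have htm : t ∈ maximalIdeal A := by
      rw [mem_maximalIdeal, mem_nonunits_iff]
      intro hu
      obtain ⟨u, hu⟩ := hu
      apply hy
      have h2 : ((u⁻¹ : Aˣ) : A) * t = 1 := by rw [← hu]; exact u.inv_mul
      have h3 : (((u⁻¹ : Aˣ) : A) : K) * (ψ y)⁻¹ = 1 := by
        have := congrArg (Subtype.val) h2
        simpa [t] using this
      have h4 : (((u⁻¹ : Aˣ) : A) : K) = ψ y := by
        field_simp at h3
        exact h3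
      rw [← h4]
      exact ((u⁻¹ : Aˣ) : A).2
    have hts : algebraMap A S t * y ∈ 𝔫 := 𝔫.mul_mem_right _ (h𝔫 htm)
    apply key _ hts
    rw [map_mul, AlgHom.commutes]
    change (ψ y)⁻¹ * ψ y = 1
    exact inv_mul_cancel₀ hne
  -- the section
  let s₀ : S →+* A := (ψ : S →+* K).codRestrict A hmem
  let s : S →ₐ[A] A := { s₀ with commutes' := fun a => Subtype.ext (ψ.commutes a) }
  refine ⟨s, fun y hy => ?_⟩
  rw [Ideal.mem_comap, mem_maximalIdeal, mem_nonunits_iff]
  intro hu
  obtain ⟨u, hu⟩ := hu
  have hts : algebraMap A S ((u⁻¹ : Aˣ) : A) * y ∈ 𝔫 := 𝔫.mul_mem_left _ hy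
  apply key _ hts
  rw [map_mul, AlgHom.commutes]
  have h2 : ((u⁻¹ : Aˣ) : A) * s y = 1 := by
    have : (s : S →+* A) y = s y := rfl
    rw [← this, ← hu]; exact u.inv_mul
  have h3 : (((u⁻¹ : Aˣ) : A) : K) * ((s y : A) : K) = 1 := congrArg Subtype.val h2
  exact h3

end SectionLemma

section StdEtale

variable {R : Type*} [CommRing R] {ι : Type*} [Fintype ι] [DecidableEq ι]
variable (F : ι → MvPolynomial ι R)

/-- The Jacobian matrix `(∂F_i/∂X_j)` of a square polynomial system. -/
noncomputable def jacMat : Matrix ι ι (MvPolynomial ι R) :=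
  Matrix.of fun i j => pderiv j (F i)

/-- The Jacobian determinant, as a polynomial. -/
noncomputable def jacDet : MvPolynomial ι R := (jacMat F).det

/-- Relations of the standard étale algebra `R[X, Y]/(F, Y · det J − 1)`. -/
noncomputable def rel : ι ⊕ Unit → MvPolynomial (ι ⊕ Unit) R
  | Sum.inl i => rename Sum.inl (F i)
  | Sum.inr _ => X (Sum.inr ()) * rename Sum.inl (jacDet F) - 1

/-- The standard étale algebra `R[X, Y]/(F, Y · det J − 1)` of a square polynomial system. -/
abbrev StdEt : Type _ := MvPolynomial (ι ⊕ Unit) R ⧸ Ideal.span (Set.range (rel F))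

/-- The naive presubmersive presentation of `StdEt F`. -/
noncomputable def preSub :
    Algebra.PreSubmersivePresentation R (StdEt F) (ι ⊕ Unit) (ι ⊕ Unit) :=
  Algebra.PreSubmersivePresentation.naive (v := rel F) id Function.injective_id

theorem preSub_jacobiMatrix :
    (preSub F).jacobiMatrix =
      Matrix.fromBlocks ((jacMat F).transpose.map (rename Sum.inl))
        (Matrix.of fun i _ => X (Sum.inr ()) * rename Sum.inl (pderiv i (jacDet F)))
        0 (Matrix.of fun _ _ => rename Sum.inl (jacDet F)) := by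
  refine Matrix.ext fun a b => ?_
  rw [preSub, Algebra.PreSubmersivePresentation.jacobiMatrix_naive]
  rcases a with i | u <;> rcases b with j | u'
  · simp [rel, jacMat, pderiv_rename Sum.inl_injective]
  · simp [rel, pderiv_rename Sum.inl_injective]
  · simp only [rel, id, Matrix.fromBlocks_apply₂₁, Matrix.zero_apply]
    apply pderiv_eq_zero_of_notMem_vars
    intro h
    obtain ⟨k, -, hk⟩ := mem_vars_rename _ _ h
    cases hk
  · simp only [rel, id, Matrix.fromBlocks_apply₂₂, Matrix.of_apply]
    have : pderiv (Sum.inr u) (rename Sum.inl (jacDet F) : MvPolynomial (ι ⊕ Unit) R) = 0 := by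
      apply pderiv_eq_zero_of_notMem_vars
      intro h
      obtain ⟨k, -, hk⟩ := mem_vars_rename _ _ h
      cases hk
    simp [this]

/-- The class of `det J` in `StdEt F`. -/
noncomputable def dbar : StdEt F := Ideal.Quotient.mk _ (rename Sum.inl (jacDet F))

theorem isUnit_dbar : IsUnit (dbar F) := by
  refine IsUnit.of_mul_eq_one (Ideal.Quotient.mk _ (X (Sum.inr ()))) ?_
  rw [dbar, ← map_mul, ← map_one (Ideal.Quotient.mk _), Ideal.Quotient.mk_eq_mk_iff_sub_mem,
    mul_comm]
  exact Ideal.subset_span ⟨Sum.inr (), rfl⟩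

theorem preSub_algebraMap (p : MvPolynomial (ι ⊕ Unit) R) :
    algebraMap (preSub F).Ring (StdEt F) p = Ideal.Quotient.mk _ p := by
  rw [Algebra.Generators.algebraMap_apply]
  have : (preSub F).val = fun i => Ideal.Quotient.mk _ (X i) := rfl
  rw [this]
  induction p using MvPolynomial.induction_on with
  | C a => simp; rfl
  | add p q hp hq => simp [hp, hq]
  | mul_X p i hp => simp [hp]

theorem preSub_jacobian : (preSub F).jacobian = dbar F * dbar F := by
  rw [Algebra.PreSubmersivePresentation.jacobian_eq_jacobiMatrix_det, preSub_jacobiMatrix,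
    Matrix.det_fromBlocks_zero₂₁, preSub_algebraMap, map_mul]
  congr 1
  · rw [dbar, jacDet, ← Matrix.det_transpose (jacMat F)]
    have := (AlgHom.map_det (rename (R := R) (Sum.inl : ι → ι ⊕ Unit)) (jacMat F).transpose)
    rw [this]
    rfl
  · rw [Matrix.det_unique]
    rfl

/-- The submersive presentation of `StdEt F`. -/
noncomputable def sub : Algebra.SubmersivePresentation R (StdEt F) (ι ⊕ Unit) (ι ⊕ Unit) where
  __ := preSub F
  jacobian_isUnit := by
    rw [preSub_jacobian]
    exact (isUnit_dbar F).mul (isUnit_dbar F)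

instance : Algebra.IsStandardSmoothOfRelativeDimension 0 R (StdEt F) :=
  (sub F).isStandardSmoothOfRelativeDimension (by
    simp [Algebra.Presentation.dimension])

instance : Algebra.Etale R (StdEt F) := inferInstance

end StdEtale

section Taylor

variable {R : Type*} [CommRing R] {ι : Type*} [Fintype ι]

/-- First-order Taylor expansion of a multivariate polynomial modulo the square of an ideal
containing the increments. -/
theorem taylor_mem_sq (𝔞 : Ideal R) (x h : ι → R) (hh : ∀ j, h j ∈ 𝔞) (p : MvPolynomial ι R) :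
    eval (x + h) p - eval x p - ∑ j, eval x (pderiv j p) * h j ∈ 𝔞 ^ 2 := by
  classical
  induction p using MvPolynomial.induction_on with
  | C a => simp
  | add p q hp hq =>
    have : eval (x + h) (p + q) - eval x (p + q) - ∑ j, eval x (pderiv j (p + q)) * h j =
        (eval (x + h) p - eval x p - ∑ j, eval x (pderiv j p) * h j) +
        (eval (x + h) q - eval x q - ∑ j, eval x (pderiv j q) * h j) := by
      simp only [map_add, add_mul, Finset.sum_add_distrib]
      ring
    rw [this]
    exact Ideal.add_mem _ hp hq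
  | mul_X p i hp =>
    set L := ∑ j, eval x (pderiv j p) * h j with hL
    have hLa : L ∈ 𝔞 := Ideal.sum_mem _ fun j _ => Ideal.mul_mem_left _ _ (hh j)
    have hsum : ∑ j, eval x (pderiv j (p * X i)) * h j = L * x i + eval x p * h i := by
      have hterm : ∀ j, eval x (pderiv j (p * X i)) * h j =
          (eval x (pderiv j p) * h j) * x i + (if j = i then eval x p * h i else 0) := by
        intro j
        rw [Derivation.leibniz, pderiv_X]
        by_cases hji : j = i
        · subst hji
          simp only [Pi.single_eq_same, smul_eq_mul, map_add, map_mul, eval_X, map_one, if_true]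
          ring
        · have : (Pi.single j (1 : MvPolynomial ι R) : ι → MvPolynomial ι R) i = 0 :=
            Pi.single_eq_of_ne' hji 1
          rw [this]
          simp only [smul_eq_mul, mul_zero, zero_add, map_mul, eval_X, if_neg hji, add_zero]
          ring
      rw [Finset.sum_congr rfl fun j _ => hterm j, Finset.sum_add_distrib, ← Finset.sum_mul,
        Finset.sum_ite_eq' Finset.univ i]
      simp [hL]
    have : eval (x + h) (p * X i) - eval x (p * X i) - ∑ j, eval x (pderiv j (p * X i)) * h j =
        (eval (x + h) p - eval x p - L) * (x i + h i) + L * h i := by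
      rw [hsum]
      simp only [map_mul, eval_X, Pi.add_apply]
      ring
    rw [this]
    refine Ideal.add_mem _ (Ideal.mul_mem_right _ _ hp) ?_
    rw [pow_two]
    exact Ideal.mul_mem_mul hLa (hh i)

/-- **Uniqueness in multi-variable Hensel.**  Two roots of a square polynomial system that are
congruent modulo an ideal contained in the Jacobson radical, at which the Jacobian determinant is
a unit, coincide. -/
theorem root_unique_of_le_jacobson [DecidableEq ι] (I : Ideal R) (hI : I ≤ Ideal.jacobson ⊥)
    (F : ι → MvPolynomial ι R) (x x' : ι → R)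
    (hx : ∀ i, eval x (F i) = 0) (hx' : ∀ i, eval x' (F i) = 0)
    (hcong : ∀ j, x' j - x j ∈ I)
    (hJ : IsUnit (Matrix.det (Matrix.of fun i j => eval x (pderiv j (F i))))) :
    x' = x := by
  set h : ι → R := x' - x with hh
  set 𝔞 : Ideal R := Ideal.span (Set.range h) with h𝔞
  have hmem : ∀ j, h j ∈ 𝔞 := fun j => Ideal.subset_span ⟨j, rfl⟩
  have h𝔞I : 𝔞 ≤ I := by
    rw [h𝔞, Ideal.span_le]
    rintro _ ⟨j, rfl⟩
    exact hcong j
  set J : Matrix ι ι R := Matrix.of fun i j => eval x (pderiv j (F i)) with hJdef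
  -- `J h ∈ 𝔞²` componentwise
  have hJh : ∀ i, (J.mulVec h) i ∈ 𝔞 ^ 2 := by
    intro i
    have := taylor_mem_sq 𝔞 x h hmem (F i)
    have hxh : x + h = x' := by rw [hh]; abel
    rw [hxh, hx, hx', sub_zero, zero_sub] at this
    have h2 := (𝔞 ^ 2).neg_mem this
    rw [neg_neg] at h2
    simpa [Matrix.mulVec, dotProduct, J] using h2
  -- hence `h ∈ 𝔞²` componentwise
  have hh2 : ∀ j, h j ∈ 𝔞 ^ 2 := by
    intro j
    have hinv : J⁻¹.mulVec (J.mulVec h) = h := by
      rw [Matrix.mulVec_mulVec, Matrix.nonsing_inv_mul _ hJ, Matrix.one_mulVec]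
    rw [← hinv]
    simp only [Matrix.mulVec, dotProduct]
    exact Ideal.sum_mem _ fun i _ => Ideal.mul_mem_left _ _ (hJh i)
  have hle : 𝔞 ≤ 𝔞 • 𝔞 := by
    rw [smul_eq_mul, ← pow_two]
    rw [h𝔞, Ideal.span_le]
    rintro _ ⟨j, rfl⟩
    exact hh2 j
  have hfg : (𝔞 : Submodule R R).FG := by
    rw [h𝔞]
    exact Submodule.fg_span (Set.finite_range h)
  have h0 : 𝔞 = ⊥ :=
    Submodule.eq_bot_of_le_smul_of_le_jacobson_bot 𝔞 𝔞 hfg hle (h𝔞I.trans hI)
  funext j
  have : h j ∈ (⊥ : Ideal R) := h0 ▸ hmem j
  rw [Ideal.mem_bot] at this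
  have h3 : x' j - x j = 0 := this
  exact sub_eq_zero.mp h3

/-- Uniqueness over a local ring. -/
theorem root_unique [DecidableEq ι] [IsLocalRing R]
    (F : ι → MvPolynomial ι R) (x x' : ι → R)
    (hx : ∀ i, eval x (F i) = 0) (hx' : ∀ i, eval x' (F i) = 0)
    (hcong : ∀ j, x' j - x j ∈ IsLocalRing.maximalIdeal R)
    (hJ : IsUnit (Matrix.det (Matrix.of fun i j => eval x (pderiv j (F i))))) :
    x' = x :=
  root_unique_of_le_jacobson (IsLocalRing.maximalIdeal R)
    (IsLocalRing.maximalIdeal_le_jacobson ⊥) F x x' hx hx' hcong hJ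

end Taylor

section ResidueEval

/-- Evaluation at congruent points gives congruent values. -/
theorem residue_eval_congr (R : Type*) [CommRing R] [IsLocalRing R] {ι : Type*} (x y : ι → R)
    (h : ∀ j, x j - y j ∈ maximalIdeal R) (p : MvPolynomial ι R) :
    residue R (eval x p) = residue R (eval y p) := by
  have hxy : ∀ j, residue R (x j) = residue R (y j) := fun j => by
    rw [← sub_eq_zero, ← map_sub, residue_eq_zero_iff]
    exact h j
  induction p using MvPolynomial.induction_on with
  | C a => simp
  | add p q hp hq => simp only [map_add, hp, hq]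
  | mul_X p i hp => simp only [map_mul, eval_X, hp, hxy]

end ResidueEval

section Main

variable {K : Type*} [Field K] [IsAlgClosed K] (A : ValuationSubring K)
variable {ι : Type*} [Fintype ι] [DecidableEq ι]

/-- **Multi-variable Hensel** over a valuation subring `A` of an algebraically closed field:
a square polynomial system over `A` with an approximate root modulo `𝔪_A` at which the Jacobian
determinant is a unit has an exact root in `A` congruent to the approximate one. -/
theorem exists_root_of_isUnit_jacDet (F : ι → MvPolynomial ι A) (x₀ : ι → A)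
    (h₀ : ∀ i, eval x₀ (F i) ∈ maximalIdeal A) (hJ : IsUnit (eval x₀ (jacDet F))) :
    ∃ x : ι → A, (∀ i, eval x (F i) = 0) ∧ ∀ j, x j - x₀ j ∈ maximalIdeal A := by
  classical
  let k := ResidueField A
  let res : A →+* k := residue A
  have hd0 : res (eval x₀ (jacDet F)) ≠ 0 := by
    intro h
    rw [residue_eq_zero_iff] at h
    exact (mem_maximalIdeal _).mp h hJ
  -- the `k`-point of the standard étale algebra
  let g : ι ⊕ Unit → k := Sum.elim (fun i => res (x₀ i)) fun _ => (res (eval x₀ (jacDet F)))⁻¹
  let θ : MvPolynomial (ι ⊕ Unit) A →+* k := eval₂Hom res g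
  have hres : ∀ p : MvPolynomial ι A,
      eval₂Hom res (fun i => res (x₀ i)) p = res (eval x₀ p) := by
    intro p
    induction p using MvPolynomial.induction_on with
    | C a => simp
    | add p q hp hq => simp only [map_add, hp, hq]
    | mul_X p i hp => simp only [map_mul, hp, eval_X, eval₂Hom_X']
  have hθren : ∀ p : MvPolynomial ι A, θ (rename Sum.inl p) = res (eval x₀ p) := by
    intro p
    have h1 : θ (rename Sum.inl p) = eval₂Hom res (g ∘ Sum.inl) p := by
      simp only [θ, coe_eval₂Hom]
      rw [eval₂_rename]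
    rw [h1]
    exact hres p
  have hθ : Ideal.span (Set.range (rel F)) ≤ RingHom.ker θ := by
    rw [Ideal.span_le]
    rintro _ ⟨a, rfl⟩
    rw [SetLike.mem_coe, RingHom.mem_ker]
    rcases a with i | u
    · change θ (rename Sum.inl (F i)) = 0
      rw [hθren, residue_eq_zero_iff]
      exact h₀ i
    · change θ (X (Sum.inr ()) * rename Sum.inl (jacDet F) - 1) = 0
      rw [map_sub, map_mul, hθren, map_one]
      have : θ (X (Sum.inr ())) = (res (eval x₀ (jacDet F)))⁻¹ := by
        simp [θ, g]
      rw [this, inv_mul_cancel₀ hd0, sub_self]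
  let θbar : StdEt F →+* k := Ideal.Quotient.lift _ θ fun a ha => hθ ha
  have hθbar : ∀ p, θbar (Ideal.Quotient.mk _ p) = θ p := fun p => Ideal.Quotient.lift_mk _ _ _
  have hθC : ∀ a : A, θbar (algebraMap A (StdEt F) a) = res a := by
    intro a
    have : algebraMap A (StdEt F) a = Ideal.Quotient.mk _ (C a) := rfl
    rw [this, hθbar]
    simp [θ]
  let 𝔫 : Ideal (StdEt F) := RingHom.ker θbar
  have h𝔫p : 𝔫.IsPrime := RingHom.ker_isPrime θbar
  have h𝔫 : maximalIdeal A ≤ 𝔫.comap (algebraMap A (StdEt F)) := by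
    intro a ha
    rw [Ideal.mem_comap, RingHom.mem_ker, hθC, residue_eq_zero_iff]
    exact ha
  obtain ⟨s, hs⟩ := exists_section A 𝔫 h𝔫
  -- the root
  let x : ι → A := fun i => s (Ideal.Quotient.mk _ (X (Sum.inl i)))
  have hsmk : ∀ p : MvPolynomial ι A,
      s (Ideal.Quotient.mk _ (rename Sum.inl p)) = eval x p := by
    intro p
    induction p using MvPolynomial.induction_on with
    | C a =>
      have : (Ideal.Quotient.mk (Ideal.span (Set.range (rel F)))) (rename Sum.inl (C a)) =
          algebraMap A (StdEt F) a := by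
        rw [rename_C]; rfl
      rw [this, s.commutes]
      simp
    | add p q hp hq => simp only [map_add, hp, hq]
    | mul_X p i hp => simp only [map_mul, rename_X, hp, eval_X, x]
  refine ⟨x, fun i => ?_, fun j => ?_⟩
  · rw [← hsmk]
    have : (Ideal.Quotient.mk (Ideal.span (Set.range (rel F)))) (rename Sum.inl (F i)) = 0 := by
      rw [Ideal.Quotient.eq_zero_iff_mem]
      exact Ideal.subset_span ⟨Sum.inl i, rfl⟩
    rw [this, map_zero]
  · have hmem : Ideal.Quotient.mk _ (X (Sum.inl j)) - algebraMap A (StdEt F) (x₀ j) ∈ 𝔫 := by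
      rw [RingHom.mem_ker, map_sub, hθbar, hθC]
      simp [θ, g]
    have := hs hmem
    rw [Ideal.mem_comap] at this
    have h2 : (s : StdEt F →+* A) (Ideal.Quotient.mk _ (X (Sum.inl j)) -
        algebraMap A (StdEt F) (x₀ j)) = x j - x₀ j := by
      change s _ = _
      rw [map_sub, s.commutes]
      rfl
    rw [h2] at this
    exact this

/-- **Multi-variable Hensel**, with the Jacobian hypothesis on the evaluated matrix. -/
theorem exists_root (F : ι → MvPolynomial ι A) (x₀ : ι → A)
    (h₀ : ∀ i, eval x₀ (F i) ∈ maximalIdeal A)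
    (hJ : IsUnit (Matrix.det (Matrix.of fun i j => eval x₀ (pderiv j (F i))))) :
    ∃ x : ι → A, (∀ i, eval x (F i) = 0) ∧ ∀ j, x j - x₀ j ∈ maximalIdeal A := by
  refine exists_root_of_isUnit_jacDet A F x₀ h₀ ?_
  have : eval x₀ (jacDet F) = Matrix.det (Matrix.of fun i j => eval x₀ (pderiv j (F i))) := by
    rw [jacDet, RingHom.map_det]
    rfl
  rw [this]
  exact hJ

/-- **Multi-variable Hensel, existence and uniqueness.** -/
theorem existsUnique_root (F : ι → MvPolynomial ι A) (x₀ : ι → A)
    (h₀ : ∀ i, eval x₀ (F i) ∈ maximalIdeal A)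
    (hJ : IsUnit (Matrix.det (Matrix.of fun i j => eval x₀ (pderiv j (F i))))) :
    ∃! x : ι → A, (∀ i, eval x (F i) = 0) ∧ ∀ j, x j - x₀ j ∈ maximalIdeal A := by
  obtain ⟨x, hx, hxc⟩ := exists_root A F x₀ h₀ hJ
  refine ⟨x, ⟨hx, hxc⟩, fun x' ⟨hx', hxc'⟩ => ?_⟩
  -- the Jacobian at `x` is still a unit, since `x ≡ x₀`
  have hJx : IsUnit (Matrix.det (Matrix.of fun i j => eval x (pderiv j (F i)))) := by
    have e1 : residue A (Matrix.det (Matrix.of fun i j => eval x (pderiv j (F i)))) =
        residue A (Matrix.det (Matrix.of fun i j => eval x₀ (pderiv j (F i)))) := by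
      rw [RingHom.map_det, RingHom.map_det]
      congr 1
      ext i j
      simp only [RingHom.mapMatrix_apply, Matrix.map_apply, Matrix.of_apply]
      exact residue_eval_congr A x x₀ hxc _
    by_contra hnu
    have h1 : Matrix.det (Matrix.of fun i j => eval x (pderiv j (F i))) ∈ maximalIdeal A :=
      (mem_maximalIdeal _).mpr hnu
    rw [← residue_eq_zero_iff, e1, residue_eq_zero_iff, mem_maximalIdeal] at h1
    exact h1 hJ
  refine root_unique F x x' hx hx' (fun j => ?_) hJx
  have : x' j - x j = (x' j - x₀ j) - (x j - x₀ j) := by ring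
  rw [this]
  exact Ideal.sub_mem _ (hxc' j) (hxc j)

/-- **Equivariance of the Hensel lift.**  If a ring automorphism `σ` of `A` fixes the system `F`
and fixes the approximate root modulo `𝔪_A`, it fixes the exact root. -/
theorem root_fixed (F : ι → MvPolynomial ι A) (x₀ : ι → A)
    (hJ : IsUnit (Matrix.det (Matrix.of fun i j => eval x₀ (pderiv j (F i)))))
    (σ : A ≃+* A) (hσF : ∀ i, map (σ : A →+* A) (F i) = F i)
    (hσx₀ : ∀ j, σ (x₀ j) - x₀ j ∈ maximalIdeal A)
    (x : ι → A) (hx : ∀ i, eval x (F i) = 0) (hxc : ∀ j, x j - x₀ j ∈ maximalIdeal A) (j : ι) :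
    σ (x j) = x j := by
  have hσm : ∀ a : A, a ∈ maximalIdeal A → σ a ∈ maximalIdeal A := by
    intro a ha
    rw [mem_maximalIdeal, mem_nonunits_iff] at ha ⊢
    intro hu
    exact ha ((isUnit_map_iff σ a).mp hu)
  have h₀ : ∀ i, eval x₀ (F i) ∈ maximalIdeal A := by
    intro i
    rw [← residue_eq_zero_iff, ← residue_eval_congr A x x₀ hxc, hx, map_zero]
  obtain ⟨y, -, hy⟩ := existsUnique_root A F x₀ h₀ hJ
  have h1 : x = y := hy x ⟨hx, hxc⟩
  have h2 : (fun j => σ (x j)) = y := by
    refine hy _ ⟨fun i => ?_, fun j => ?_⟩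
    · have : eval (fun j => σ (x j)) (map (σ : A →+* A) (F i)) = σ (eval x (F i)) := by
        rw [eval_map]
        generalize F i = p
        induction p using MvPolynomial.induction_on with
        | C a => simp
        | add p q hp hq => simp only [eval₂_add, map_add, hp, hq]
        | mul_X p i hp => simp only [eval₂_mul, eval₂_X, map_mul, eval_X, hp]
      rw [hσF] at this
      rw [this, hx, map_zero]
    · have : σ (x j) - x₀ j = σ (x j - x₀ j) + (σ (x₀ j) - x₀ j) := by
        rw [map_sub]; ring
      rw [this]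
      exact Ideal.add_mem _ (hσm _ (hxc j)) (hσx₀ j)
  have := congrFun (h2.trans h1.symm) j
  exact this

end Main

end Fermat.Agent.GR.MvHensel

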