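/-
GATE-R / S17, node GR-W-REDFIN, abstract part (helper34).

`F / K` a function field in one variable (Prelude vocabulary `Place`, `Divisor`, `Pic0`) with finite
residue fields, principal divisors and all places of degree one; `b : SemilinearAut K F` a
semilinear automorphism such that

* `b` fixes a place `O` (of degree one),
* `b` fixes a non-constant function `t`,
* every positive power of the base automorphism of `b` has finitely many fixed points in `K`
  (for the arithmetic Frobenius of `𝔽̄_ℓ`: the roots of `X ^ (ℓ ^ m) - X`).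

Then **the classes of `Pic0 K F` fixed by `b` are finitely many** (`finite_fixed_pic0`): this is the
finiteness of the class group of a function field over a finite field, in the form "Frobenius-fixed
classes of `Pic⁰` over `𝔽̄_ℓ`".

Proof: by `RR/EffRep` (helper66) a `b`-fixed class has a `b`-fixed canonical effective
representative `effRep D O`, of degree `minTwist D O ≤ n₀` (Riemann's inequality); the support of a
`b`-fixed effective divisor of degree `≤ n₀` consists of places fixed by some `b ^ m`, `1 ≤ m ≤ n₀`;
a place fixed by `b ^ m` is a pole of `t` or a zero of `t - a` with `a` fixed by the `m`-th power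
of the base automorphism: finitely many.
-/
import Fermat.Agent.RR.EffRep
import Fermat.Agent.S24.DegOne
import Fermat.Prelude.Def_AlgebraicCurve_BaseChangeGalois

set_option autoImplicit false

noncomputable section

open AlgebraicCurve

namespace Fermat.Agent.GR.W.RedFinAbs

open Fermat.Agent.RRh45 Fermat.Agent.RR.Bound Fermat.Agent.RR.EffRep Fermat.Agent.S24

variable {K F : Type*} [Field K] [Field F] [Algebra K F]

/-! ### values at places of degree one -/

theorem algebraMap_residueField_surjective (v : Place K F) (h : v.deg = 1) :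
    Function.Surjective (algebraMap K v.ResidueField) := by
  have h1 : Module.finrank K v.ResidueField = 1 := h
  have h2 : (⊥ : Subalgebra K v.ResidueField) = ⊤ := Subalgebra.bot_eq_top_of_finrank_eq_one h1
  intro x
  have hx : x ∈ (⊥ : Subalgebra K v.ResidueField) := by rw [h2]; exact Algebra.mem_top
  exact Algebra.mem_bot.mp hx

/-- a function regular at a place of degree one takes a value there -/
theorem exists_value (Q : Place K F) (hQ : Q.deg = 1) {t : F} (ht : 0 ≤ Q.ord t) :
    ∃ a : K, t = algebraMap K F a ∨ 0 < Q.ord (t - algebraMap K F a) := by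
  rcases eq_or_ne t 0 with rfl | ht0
  · exact ⟨0, Or.inl (map_zero _).symm⟩
  have hmem : t ∈ Q.toValuationSubring := (PlaceB.ord_nonneg_iff Q ht0).mp ht
  obtain ⟨a, ha⟩ := algebraMap_residueField_surjective Q hQ
    (IsLocalRing.residue Q.toValuationSubring ⟨t, hmem⟩)
  refine ⟨a, ?_⟩
  set d : Q.toValuationSubring := ⟨t, hmem⟩ - algebraMap K Q.toValuationSubring a with hd
  have hdc : (d : F) = t - algebraMap K F a := by
    rw [hd]
    show t - ((algebraMap K Q.toValuationSubring a : Q.toValuationSubring) : F) = _
    rw [Place.coe_algebraMap]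
  by_cases hd0 : d = 0
  · left
    have : (d : F) = 0 := by rw [hd0]; rfl
    rw [hdc] at this
    exact sub_eq_zero.mp this
  · right
    have hmax : d ∈ IsLocalRing.maximalIdeal Q.toValuationSubring := by
      rw [← IsLocalRing.residue_eq_zero_iff, hd, map_sub, sub_eq_zero, ← ha]
      rfl
    have := (PlaceB.ord_pos_iff_mem_maximalIdeal Q hd0).mpr hmax
    rwa [hdc] at this

/-! ### zeros and poles -/

theorem finite_ord_ne_zero [HasPrincipalDivisors K F] {f : F} (hf : f ≠ 0) :
    {Q : Place K F | Q.ord f ≠ 0}.Finite := by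
  obtain ⟨D, hD, -⟩ := HasPrincipalDivisors.exists_divisor (K := K) f hf
  apply D.support.finite_toSet.subset
  intro Q hQ
  rw [Finset.mem_coe, Finsupp.mem_support_iff, hD Q]
  exact hQ

/-! ### places fixed by a semilinear automorphism -/

theorem ord_smul_of_fixed (g : SemilinearAut K F) {Q : Place K F} (hQ : g • Q = Q) (f : F) :
    Q.ord (g • f) = Q.ord f := by
  have h := SemilinearAut.ord_smul g Q f
  rwa [hQ] at h

/-- the places fixed by a semilinear automorphism fixing a non-constant function, whose base
automorphism has finitely many fixed points, are finitely many -/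
theorem finite_fixed_places [HasPrincipalDivisors K F] (g : SemilinearAut K F)
    (hdeg : ∀ Q : Place K F, Q.deg = 1) (t : F) (ht : ∀ a : K, t ≠ algebraMap K F a)
    (hgt : g • t = t) (hfix : {a : K | SemilinearAut.baseAut g a = a}.Finite) :
    {Q : Place K F | g • Q = Q}.Finite := by
  have ht0 : t ≠ 0 := fun h => ht 0 (by rw [h, map_zero])
  have hsub : ∀ a : K, t - algebraMap K F a ≠ 0 := fun a h => ht a (sub_eq_zero.mp h)
  have hfin : ({Q : Place K F | Q.ord t ≠ 0} ∪
      ⋃ a ∈ {a : K | SemilinearAut.baseAut g a = a},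
        {Q : Place K F | Q.ord (t - algebraMap K F a) ≠ 0}).Finite :=
    (finite_ord_ne_zero ht0).union (hfix.biUnion fun a _ => finite_ord_ne_zero (hsub a))
  apply hfin.subset
  intro Q hQ
  have hQ' : g • Q = Q := hQ
  by_cases hneg : Q.ord t < 0
  · left
    exact ne_of_lt hneg
  · right
    obtain ⟨a, ha | ha⟩ := exists_value Q (hdeg Q) (not_lt.mp hneg)
    · exact absurd ha (ht a)
    · have h1 : 0 < Q.ord (g • (t - algebraMap K F a)) := by
        rw [ord_smul_of_fixed g hQ']; exact ha
      rw [smul_sub, hgt, SemilinearAut.smul_algebraMap] at h1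
      have hfa : SemilinearAut.baseAut g a = a := by
        by_contra hne
        have hc : SemilinearAut.baseAut g a - a ≠ 0 := sub_ne_zero.mpr hne
        have hc0 := PlaceB.ord_algebraMap Q (F := F) hc
        have heq : algebraMap K F (SemilinearAut.baseAut g a - a) =
            (t - algebraMap K F a) + -(t - algebraMap K F (SemilinearAut.baseAut g a)) := by
          rw [map_sub]; ring
        have hne0 : (t - algebraMap K F a) + -(t - algebraMap K F (SemilinearAut.baseAut g a)) ≠ 0 := by
          rw [← heq]; exact (map_ne_zero (algebraMap K F)).mpr hc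
        have hmin := PlaceB.ord_add_ge Q (hsub a) (neg_ne_zero.mpr (hsub _)) hne0
        rw [← heq, hc0, PlaceB.ord_neg] at hmin
        have := lt_min ha h1
        omega
      refine Set.mem_biUnion (x := a) hfa ?_
      exact ne_of_gt ha

theorem baseAut_pow (g : SemilinearAut K F) (m : ℕ) :
    SemilinearAut.baseAut (g ^ m) = SemilinearAut.baseAut g ^ m := by
  induction m with
  | zero => simp
  | succ m ih => rw [pow_succ, pow_succ, SemilinearAut.baseAut_mul, ih]

theorem pow_smul_eq_of_smul_eq {G α : Type*} [Group G] [MulAction G α] {g : G} {x : α}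
    (h : g • x = x) (m : ℕ) : g ^ m • x = x := by
  have hg : g ∈ MulAction.stabilizer G x := h
  exact pow_mem hg m

/-! ### invariant effective divisors of bounded degree -/

section Invariant

variable (g : SemilinearAut K F)

theorem apply_smul_of_fixed {E : Divisor K F} (hE : g • E = E) (Q : Place K F) :
    E (g • Q) = E Q := by
  have h := SemilinearAut.divisor_smul_apply_smul g E Q
  rwa [hE] at h

theorem apply_pow_smul_of_fixed {E : Divisor K F} (hE : g • E = E) (Q : Place K F) (i : ℕ) :
    E (g ^ i • Q) = E Q := by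
  induction i with
  | zero => simp
  | succ i ih => rw [pow_succ', mul_smul, apply_smul_of_fixed g hE, ih]

theorem degree_eq_sum_of_deg_one (hdeg : ∀ Q : Place K F, Q.deg = 1) (E : Divisor K F) :
    Divisor.degree E = ∑ Q ∈ E.support, E Q := by
  rw [degree_eq_sum]
  refine Finset.sum_congr rfl fun Q _ => ?_
  rw [hdeg Q]; simp

theorem apply_le_degree (hdeg : ∀ Q : Place K F, Q.deg = 1) {E : Divisor K F} (hE : 0 ≤ E)
    (Q : Place K F) : E Q ≤ Divisor.degree E := by
  rw [degree_eq_sum_of_deg_one hdeg]
  by_cases hQ : Q ∈ E.support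
  · exact Finset.single_le_sum (f := fun Q => E Q) (fun P _ => Finsupp.le_def.mp hE P) hQ
  · rw [Finsupp.notMem_support_iff.mp hQ]
    exact Finset.sum_nonneg fun P _ => Finsupp.le_def.mp hE P

theorem card_support_le_degree (hdeg : ∀ Q : Place K F, Q.deg = 1) {E : Divisor K F}
    (hE : 0 ≤ E) : (E.support.card : ℤ) ≤ Divisor.degree E := by
  rw [degree_eq_sum_of_deg_one hdeg]
  have : ∀ Q ∈ E.support, (1 : ℤ) ≤ E Q := by
    intro Q hQ
    have h0 : 0 ≤ E Q := Finsupp.le_def.mp hE Q
    have hne : E Q ≠ 0 := Finsupp.mem_support_iff.mp hQ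
    omega
  calc (E.support.card : ℤ) = ∑ _Q ∈ E.support, (1 : ℤ) := by simp
    _ ≤ ∑ Q ∈ E.support, E Q := Finset.sum_le_sum this

/-- every point of an invariant effective divisor of degree `≤ n₀` is fixed by some `g ^ m`,
`1 ≤ m ≤ n₀` -/
theorem exists_pow_fixed_of_mem_support (hdeg : ∀ Q : Place K F, Q.deg = 1) {E : Divisor K F}
    (hE : 0 ≤ E) (hgE : g • E = E) {n₀ : ℕ} (hn : Divisor.degree E ≤ n₀) {Q : Place K F}
    (hQ : Q ∈ E.support) : ∃ m : ℕ, 0 < m ∧ m ≤ n₀ ∧ g ^ m • Q = Q := by
  classical
  have hcard : E.support.card ≤ n₀ := by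
    have := card_support_le_degree hdeg hE
    omega
  have hmaps : ∀ i ∈ Finset.range (n₀ + 1), g ^ i • Q ∈ E.support := by
    intro i _
    rw [Finsupp.mem_support_iff, apply_pow_smul_of_fixed g hgE]
    exact Finsupp.mem_support_iff.mp hQ
  obtain ⟨i, hi, j, hj, hij, heq⟩ := Finset.exists_ne_map_eq_of_card_lt_of_maps_to
    (by rw [Finset.card_range]; omega) hmaps
  rw [Finset.mem_range] at hi hj
  wlog hlt : i < j generalizing i j
  · exact this j hj i hi hij.symm heq.symm (lt_of_le_of_ne (not_lt.mp hlt) hij.symm)
  refine ⟨j - i, by omega, by omega, ?_⟩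
  have h1 : g ^ j = g ^ i * g ^ (j - i) := by rw [← pow_add]; congr 1; omega
  rw [h1, mul_smul] at heq
  exact (MulAction.injective (g ^ i) heq).symm

/-- finitely many invariant effective divisors of bounded degree -/
theorem finite_invariant_effective (hdeg : ∀ Q : Place K F, Q.deg = 1) (n₀ : ℕ)
    (hfin : ∀ m : ℕ, 0 < m → m ≤ n₀ → {Q : Place K F | g ^ m • Q = Q}.Finite) :
    {E : Divisor K F | 0 ≤ E ∧ Divisor.degree E ≤ n₀ ∧ g • E = E}.Finite := by
  classical
  set S : Set (Place K F) := ⋃ m ∈ Finset.Icc 1 n₀, {Q : Place K F | g ^ m • Q = Q} with hS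
  have hSfin : S.Finite :=
    Set.Finite.biUnion (Finset.finite_toSet _) fun m hm => by
      have hm' := Finset.mem_Icc.mp hm
      exact hfin m (by omega) hm'.2
  have : Finite S := hSfin.to_subtype
  have hT : (Set.univ.pi fun _ : S => Set.Icc (0 : ℤ) n₀).Finite :=
    Set.Finite.pi fun _ => Set.finite_Icc _ _
  refine Set.Finite.of_injOn (f := fun E : Divisor K F => fun s : S => E s.1) ?_ ?_ hT
  · rintro E ⟨hE, hn, -⟩
    rw [Set.mem_univ_pi]
    intro s
    exact ⟨Finsupp.le_def.mp hE s.1, (apply_le_degree hdeg hE s.1).trans hn⟩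
  · rintro E ⟨hE, hn, hgE⟩ E' ⟨hE', hn', hgE'⟩ heq
    have hsupp : ∀ {D : Divisor K F}, 0 ≤ D → Divisor.degree D ≤ n₀ → g • D = D →
        ∀ Q, Q ∉ S → D Q = 0 := by
      intro D hD hDn hgD Q hQS
      by_contra hne
      obtain ⟨m, hm0, hmn, hmQ⟩ := exists_pow_fixed_of_mem_support g hdeg hD hgD hDn
        (Finsupp.mem_support_iff.mpr hne)
      exact hQS (Set.mem_biUnion (x := m) (Finset.mem_coe.mpr (Finset.mem_Icc.mpr ⟨hm0, hmn⟩)) hmQ)
    ext Q
    by_cases hQ : Q ∈ S
    · exact congrFun heq ⟨Q, hQ⟩
    · rw [hsupp hE hn hgE Q hQ, hsupp hE' hn' hgE' Q hQ]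

end Invariant

/-! ### fixed classes -/

section Classes

variable [FiniteResidues K F] [HasPrincipalDivisors K F]

/-- uniform bound for the minimal twist of a divisor of degree zero -/
theorem exists_minTwist_le (O : Place K F) (hO : O.deg = 1) :
    ∃ n₀ : ℕ, ∀ D : Divisor K F, Divisor.degree D = 0 → minTwist D O ≤ n₀ := by
  obtain ⟨γ, hγ⟩ := riemann_bound (K := K) (F := F)
  refine ⟨(γ + 1).toNat, fun D hD => ?_⟩
  refine minTwist_le D O fun hbot => ?_
  have h1 := hγ (tw D O ((γ + 1).toNat : ℤ))
  rw [hbot, finrank_bot, degree_tw, hD, hO] at h1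
  have := Int.self_le_toNat (γ + 1)
  push_cast at h1
  omega

theorem minTwist_nonneg (O : Place K F) (hO : O.deg = 1) {D : Divisor K F}
    (hD : Divisor.degree D = 0) : 0 ≤ minTwist D O := by
  by_contra hneg
  rw [not_le] at hneg
  apply minTwist_ne_bot D O
  apply riemannRochSpace_eq_bot_of_degree_neg
  rw [degree_tw, hD, hO]
  simpa using hneg

/-- the permutation of the places induced by a semilinear automorphism -/
def placePerm (b : SemilinearAut K F) : Place K F ≃ Place K F := MulAction.toPerm b

omit [FiniteResidues K F] [HasPrincipalDivisors K F] in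
theorem act_placePerm (b : SemilinearAut K F) (D : Divisor K F) : act (placePerm b) D = b • D := by
  ext Q
  rw [act_apply, SemilinearAut.divisor_smul_apply]
  rfl

omit [FiniteResidues K F] [HasPrincipalDivisors K F] in
theorem principal_iff_smul (b : SemilinearAut K F) (D : Divisor K F) :
    D ∈ Divisor.principal (K := K) (F := F) ↔
      act (placePerm b) D ∈ Divisor.principal (K := K) (F := F) := by
  rw [act_placePerm]
  refine ⟨SemilinearAut.smul_mem_principal b, fun h => ?_⟩
  have := SemilinearAut.smul_mem_principal b⁻¹ h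
  rwa [inv_smul_smul] at this

/-- **Frobenius-fixed classes are finitely many.** -/
theorem finite_fixed_pic0 (b : SemilinearAut K F) (O : Place K F) (hbO : b • O = O)
    (hdeg : ∀ Q : Place K F, Q.deg = 1) (t : F) (ht : ∀ a : K, t ≠ algebraMap K F a)
    (hbt : b • t = t)
    (hφ : ∀ m : ℕ, 0 < m → {a : K | (SemilinearAut.baseAut b ^ m) a = a}.Finite) :
    {x : Pic0 K F | b • x = x}.Finite := by
  classical
  have hO : O.deg = 1 := hdeg O
  obtain ⟨n₀, hn₀⟩ := exists_minTwist_le O hO
  have hfinE : {E : Divisor K F | 0 ≤ E ∧ Divisor.degree E ≤ n₀ ∧ b • E = E}.Finite := by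
    refine finite_invariant_effective b hdeg n₀ fun m hm _ => ?_
    refine finite_fixed_places (b ^ m) hdeg t ht (pow_smul_eq_of_smul_eq hbt m) ?_
    rw [baseAut_pow]
    exact hφ m hm
  -- the canonical effective representative of a class
  let rep : Pic0 K F → Divisor K F := fun x => effRep ((Pic0.mk_surjective x).choose : Divisor K F) O
  have hrep : ∀ D : Divisor.degZero (K := K) (F := F),
      rep (Pic0.mk D) = effRep (D : Divisor K F) O := by
    intro D
    have h := (Pic0.mk_surjective (Pic0.mk D)).choose_spec
    apply effRep_eq_of_principal O hO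
    have h2 := (QuotientAddGroup.eq (s := (Divisor.principal (K := K) (F := F)).addSubgroupOf
      (Divisor.degZero (K := K) (F := F)))).mp h.symm
    rw [AddSubgroup.mem_addSubgroupOf] at h2
    have h3 : (((-D + (Pic0.mk_surjective (Pic0.mk D)).choose : Divisor.degZero (K := K) (F := F))) :
        Divisor K F) = ((Pic0.mk_surjective (Pic0.mk D)).choose : Divisor K F) - (D : Divisor K F) := by
      push_cast; abel
    rwa [h3] at h2
  refine Set.Finite.of_injOn (f := rep) ?_ ?_ hfinE
  · intro x hx
    obtain ⟨D, rfl⟩ := Pic0.mk_surjective x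
    have hx' : b • Pic0.mk D = Pic0.mk D := hx
    have hD0 : Divisor.degree (D : Divisor K F) = 0 := Divisor.mem_degZero.mp D.2
    rw [hrep D]
    refine ⟨effRep_nonneg _ O, ?_, ?_⟩
    · rw [degree_effRep, hD0, hO]
      have := hn₀ _ hD0
      push_cast
      omega
    · rw [← act_placePerm]
      apply act_effRep_eq_of_class_fixed (placePerm b) O hO hbO (principal_iff_smul b)
      rw [act_placePerm]
      rw [SemilinearAut.pic0_smul_mk] at hx'
      have h2 := (QuotientAddGroup.eq (s := (Divisor.principal (K := K) (F := F)).addSubgroupOf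
        (Divisor.degZero (K := K) (F := F)))).mp hx'.symm
      rw [AddSubgroup.mem_addSubgroupOf] at h2
      have h3 : ((-D + SemilinearAut.degZeroSMulHom b D : Divisor.degZero (K := K) (F := F)) :
          Divisor K F) = b • (D : Divisor K F) - (D : Divisor K F) := by
        push_cast; rw [SemilinearAut.coe_degZeroSMulHom]; abel
      rwa [h3] at h2
  · intro x _ y _ hxy
    obtain ⟨D, rfl⟩ := Pic0.mk_surjective x
    obtain ⟨D', rfl⟩ := Pic0.mk_surjective y
    have hxy' : rep (Pic0.mk D) = rep (Pic0.mk D') := hxy
    rw [hrep D, hrep D'] at hxy'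
    have hD0 : Divisor.degree (D : Divisor K F) = 0 := Divisor.mem_degZero.mp D.2
    have hD0' : Divisor.degree (D' : Divisor K F) = 0 := Divisor.mem_degZero.mp D'.2
    -- equal degrees give equal minimal twists
    have hmt : minTwist (D : Divisor K F) O = minTwist (D' : Divisor K F) O := by
      have h1 := degree_effRep (D : Divisor K F) O
      have h2 := degree_effRep (D' : Divisor K F) O
      rw [hD0, hO] at h1
      rw [hD0', hO] at h2
      rw [hxy'] at h1
      push_cast at h1 h2
      omega
    have hp1 := effRep_sub_mem_principal (D : Divisor K F) O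
    have hp2 := effRep_sub_mem_principal (D' : Divisor K F) O
    rw [hxy', hmt] at hp1
    have hdiff : (D : Divisor K F) - (D' : Divisor K F) ∈
        Divisor.principal (K := K) (F := F) := by
      have e : (D : Divisor K F) - (D' : Divisor K F) =
          (effRep (D' : Divisor K F) O - tw (D' : Divisor K F) O (minTwist (D' : Divisor K F) O)) -
          (effRep (D' : Divisor K F) O - tw (D : Divisor K F) O (minTwist (D' : Divisor K F) O)) := by
        unfold tw; abel
      rw [e]
      exact AddSubgroup.sub_mem _ hp2 hp1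
    symm
    apply (QuotientAddGroup.eq (s := (Divisor.principal (K := K) (F := F)).addSubgroupOf
      (Divisor.degZero (K := K) (F := F)))).mpr
    rw [AddSubgroup.mem_addSubgroupOf]
    have h3 : ((-D' + D : Divisor.degZero (K := K) (F := F)) : Divisor K F) =
        (D : Divisor K F) - (D' : Divisor K F) := by
      push_cast; abel
    rwa [h3]

end Classes

end Fermat.Agent.GR.W.RedFinAbs
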