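/-
GATE-R (S17, Mordell–Weil for `J₀(N)`) / node (W) weak Mordell–Weil, ABSTRACT core (helper79).

`G` a group with a level system `𝒰` (e.g. `G_ℚ` with `levelS S`), `B` an abelian group with a
`G`-action (e.g. `JZero N`), `A = B^G`, `n ≥ 1`, `M ≅ B[n]` a discrete `G`-module model of the
`n`-torsion such that `H¹_lc(G, M)` is FINITE, and the Kummer cocycles `σ ↦ σ y - y`
(`n y ∈ A`) are level-constant.  Then

* `relIndex_kummer_ne_zero` : `n A` has finite index in `A ∩ n B`   (Kummer injection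
  `(A ∩ n B)/n A ↪ H¹_lc(G, M)`, in cardinality form);
* `finiteIndex_nsmul_fixedPoints` : if moreover a subgroup `K₁ ≤ B` (kernel of reduction at one
  prime `ℓ`) has (K2) `K₁ ∩ A ⊆ n B` and (CL) `[A : K₁ ∩ A] < ∞`, then `[A : n A] < ∞`, in the
  exact shape of the binder `H₁` of Mathlib's `AddCommGroup.fg_of_descent`:
  `(nsmulAddMonoidHom (α := ↥(FixedPoints.addSubgroup G B)) n).range.FiniteIndex`.

Mathlib + `GC/Prof/Low` only.  The corollary for `G_ℚ`, `n = p` odd, with the finiteness of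
`H¹_lc` discharged by `hlc_finite_of_odd`, is in `GR/W/KummerOdd.lean`.
-/
import Fermat.Agent.GC.Prof.Low

set_option autoImplicit false

namespace Fermat.Agent.GR.W.KummerAbs

open Fermat.Agent.GC.Prof groupCohomology

noncomputable section

variable {k : Type} [CommRing k] {G : Type} [Group G] (𝒰 : LevelSystem G)
variable {B : Type} [AddCommGroup B] [DistribMulAction G B]
variable (n : ℕ)
variable (M : Rep.{0} k G) [IsDiscrete 𝒰 M]
variable (ι : M →+ B)

/-- the rational points `A = B^G`. -/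
abbrev fixedPts (G : Type) [Group G] (B : Type) [AddCommGroup B] [DistribMulAction G B] :
    AddSubgroup B := FixedPoints.addSubgroup G B

theorem mem_fixedPts {x : B} : x ∈ fixedPts G B ↔ ∀ σ : G, σ • x = x := Iff.rfl

theorem smul_nsmul_eq (σ : G) (m : ℕ) (x : B) : σ • (m • x) = m • (σ • x) :=
  map_nsmul (DistribSMul.toAddMonoidHom B σ) m x

/-- `n A` as a subgroup of `B`. -/
def nsmulFixed : AddSubgroup B := (fixedPts G B).map (nsmulAddMonoidHom (α := B) n)

/-- `A ∩ n B` as a subgroup of `B`. -/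
def fixedDiv : AddSubgroup B := fixedPts G B ⊓ (nsmulAddMonoidHom (α := B) n).range

variable {n}

theorem mem_nsmulFixed {x : B} :
    x ∈ nsmulFixed (G := G) (B := B) n ↔ ∃ a : B, (∀ σ : G, σ • a = a) ∧ n • a = x := by
  constructor
  · rintro ⟨a, ha, rfl⟩
    exact ⟨a, ha, rfl⟩
  · rintro ⟨a, ha, rfl⟩
    exact ⟨a, ha, rfl⟩

theorem mem_fixedDiv {x : B} :
    x ∈ fixedDiv (G := G) (B := B) n ↔ (∀ σ : G, σ • x = x) ∧ ∃ y : B, n • y = x := by
  constructor
  · rintro ⟨hx, y, rfl⟩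
    exact ⟨hx, y, rfl⟩
  · rintro ⟨hx, y, rfl⟩
    exact ⟨hx, y, rfl⟩

theorem nsmulFixed_le_fixedDiv : nsmulFixed (G := G) (B := B) n ≤ fixedDiv (G := G) (B := B) n := by
  intro x hx
  obtain ⟨a, ha, rfl⟩ := mem_nsmulFixed.1 hx
  refine mem_fixedDiv.2 ⟨fun σ => ?_, a, rfl⟩
  rw [smul_nsmul_eq, ha σ]

/-- the hypotheses on the torsion model `ι : M → B`. -/
structure TorsionModel : Prop where
  hinj : Function.Injective ι
  hkill : ∀ m : M, n • ι m = 0
  htors : ∀ t : B, n • t = 0 → ∃ m : M, ι m = t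
  hequiv : ∀ (σ : G) (m : M), ι (M.ρ σ m) = σ • ι m
  /-- the Kummer cocycle of every `y` with `n y` rational is level-constant. -/
  hlc : ∀ y : B, (∀ σ : G, σ • (n • y) = n • y) → IsLC₁ 𝒰 (fun σ : G => σ • y - y)

variable {𝒰 M ι}

section Kummer

variable (h : TorsionModel 𝒰 (n := n) M ι)

/-- `σ y - y` is `n`-torsion when `n y` is rational. -/
theorem nsmul_kummer_eq_zero {y : B} (hy : ∀ σ : G, σ • (n • y) = n • y) (σ : G) :
    n • (σ • y - y) = 0 := by
  rw [nsmul_sub, ← smul_nsmul_eq, hy σ, sub_self]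

/-- the Kummer cocycle of `y`, with values in `M`. -/
def kummerFun (y : B) (hy : ∀ σ : G, σ • (n • y) = n • y) : G → M :=
  fun σ => (h.htors (σ • y - y) (nsmul_kummer_eq_zero hy σ)).choose

omit [IsDiscrete 𝒰 M] in
include h in
theorem ι_kummerFun (y : B) (hy : ∀ σ : G, σ • (n • y) = n • y) (σ : G) :
    ι (kummerFun h y hy σ) = σ • y - y :=
  (h.htors (σ • y - y) (nsmul_kummer_eq_zero hy σ)).choose_spec

theorem kummerFun_mem (y : B) (hy : ∀ σ : G, σ • (n • y) = n • y) :
    kummerFun h y hy ∈ lcCocycles₁ 𝒰 M := by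
  refine (mem_lcCocycles₁_iff 𝒰 M _).2 ⟨?_, ?_⟩
  · rw [mem_cocycles₁_iff]
    intro σ τ
    apply h.hinj
    rw [map_add, h.hequiv, ι_kummerFun h, ι_kummerFun h, ι_kummerFun h, mul_smul, smul_sub]
    abel
  · obtain ⟨U, hU, hUc⟩ := h.hlc y hy
    refine ⟨U, hU, fun g s hs => ?_⟩
    apply h.hinj
    rw [ι_kummerFun h, ι_kummerFun h]
    exact hUc g s hs

/-- the Kummer class of `y`. -/
def kummerClass (y : B) (hy : ∀ σ : G, σ • (n • y) = n • y) : Hlc 𝒰 M 1 :=
  Hlc1π 𝒰 M ⟨kummerFun h y hy, kummerFun_mem h y hy⟩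

/-- **Kummer injectivity** (fibre form): if `y, y'` (with `n y, n y'` rational) have the same
Kummer class then `n y - n y' ∈ n A`. -/
theorem sub_mem_nsmulFixed_of_kummerClass_eq (y y' : B) (hy : ∀ σ : G, σ • (n • y) = n • y)
    (hy' : ∀ σ : G, σ • (n • y') = n • y')
    (hc : kummerClass h y hy = kummerClass h y' hy') :
    n • y - n • y' ∈ nsmulFixed (G := G) (B := B) n := by
  have hsub : Hlc1π 𝒰 M (⟨kummerFun h y hy, kummerFun_mem h y hy⟩ -
      ⟨kummerFun h y' hy', kummerFun_mem h y' hy'⟩) = 0 := by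
    rw [map_sub]
    exact sub_eq_zero.2 hc
  obtain ⟨m, hm⟩ := (Hlc1π_eq_zero_iff 𝒰 M _).1 hsub
  -- `σ m - m = (σ y - y) - (σ y' - y')`
  have key : ∀ σ : G, σ • ι m - ι m = (σ • y - y) - (σ • y' - y') := by
    intro σ
    have := congrFun hm σ
    have h2 := congrArg ι this
    rw [d₀₁_hom_apply, map_sub, h.hequiv] at h2
    rw [h2]
    show ι (kummerFun h y hy σ - kummerFun h y' hy' σ) = _
    rw [map_sub, ι_kummerFun h, ι_kummerFun h]
  refine mem_nsmulFixed.2 ⟨y - y' - ι m, fun σ => ?_, ?_⟩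
  · have := key σ
    rw [smul_sub, smul_sub]
    have e : σ • y - σ • y' - σ • ι m - (y - y' - ι m) =
        (σ • y - y) - (σ • y' - y') - (σ • ι m - ι m) := by abel
    have e2 : σ • y - σ • y' - σ • ι m - (y - y' - ι m) = 0 := by rw [e, this, sub_self]
    exact sub_eq_zero.1 e2
  · -- `n (ι m) = 0`
    have hm0 : n • ι m = 0 := h.hkill m
    rw [nsmul_sub, nsmul_sub, hm0, sub_zero]

include h in
/-- **Kummer finiteness**: `n A` has finite index in `A ∩ n B` as soon as `H¹_lc(G, M)` is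
finite. -/
theorem relIndex_kummer_ne_zero [Finite (Hlc 𝒰 M 1)] :
    (nsmulFixed (G := G) (B := B) n).relIndex (fixedDiv (G := G) (B := B) n) ≠ 0 := by
  classical
  set A' := fixedDiv (G := G) (B := B) n with hA'
  set H := (nsmulFixed (G := G) (B := B) n).addSubgroupOf A' with hH
  -- a choice of `n`-th part
  have hdiv : ∀ x : A', ∃ y : B, n • y = (x : B) := fun x => (mem_fixedDiv.1 x.2).2
  let yOf : A' → B := fun x => (hdiv x).choose
  have hyOf : ∀ x : A', n • yOf x = (x : B) := fun x => (hdiv x).choose_spec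
  have hrat : ∀ x : A', ∀ σ : G, σ • (n • yOf x) = n • yOf x := by
    intro x σ
    rw [hyOf x]
    exact (mem_fixedDiv.1 x.2).1 σ
  let φ : A' → Hlc 𝒰 M 1 := fun x => kummerClass h (yOf x) (hrat x)
  have hφ : ∀ x x' : A', φ x = φ x' → x - x' ∈ H := by
    intro x x' hxx'
    have := sub_mem_nsmulFixed_of_kummerClass_eq h (yOf x) (yOf x') (hrat x) (hrat x') hxx'
    rw [hyOf x, hyOf x'] at this
    exact this
  let f : A' ⧸ H → Hlc 𝒰 M 1 := fun q => φ q.out
  have hf : Function.Injective f := by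
    intro q q' hqq'
    have h1 := hφ q.out q'.out hqq'
    have h2 : (QuotientAddGroup.mk q.out : A' ⧸ H) = QuotientAddGroup.mk q'.out := by
      rw [QuotientAddGroup.eq]
      have : -q.out + q'.out = -(q.out - q'.out) := by abel
      rw [this]
      exact H.neg_mem h1
    rw [QuotientAddGroup.out_eq', QuotientAddGroup.out_eq'] at h2
    exact h2
  have hfin : Finite (A' ⧸ H) := Finite.of_injective f hf
  exact AddSubgroup.index_ne_zero_of_finite

end Kummer

section Assembly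

variable (h : TorsionModel 𝒰 (n := n) M ι)

/-- the range of `n •` on the TYPE `↥A` is `n A`. -/
theorem range_nsmul_fixedPts :
    (nsmulAddMonoidHom (α := ↥(fixedPts G B)) n).range =
      (nsmulFixed (G := G) (B := B) n).addSubgroupOf (fixedPts G B) := by
  ext x
  rw [AddMonoidHom.mem_range, AddSubgroup.mem_addSubgroupOf, mem_nsmulFixed]
  constructor
  · rintro ⟨a, rfl⟩
    exact ⟨a, a.2, rfl⟩
  · rintro ⟨a, ha, hax⟩
    exact ⟨⟨a, ha⟩, Subtype.ext hax⟩

include h in
/-- **weak Mordell–Weil, abstract form.**  `[A : n A] < ∞` from: Kummer (`H¹_lc(G, M)` finite),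
(K2) `K₁ ∩ A ⊆ n B`, (CL) `[A : K₁ ∩ A] < ∞`.  The conclusion is the binder `H₁` of Mathlib's
`AddCommGroup.fg_of_descent` for the group `↥(FixedPoints.addSubgroup G B)`. -/
theorem finiteIndex_nsmul_fixedPoints [Finite (Hlc 𝒰 M 1)] (K₁ : AddSubgroup B)
    (hK2 : ∀ x ∈ K₁, (∀ σ : G, σ • x = x) → ∃ y : B, n • y = x)
    (hcl : (K₁ ⊓ fixedPts G B).relIndex (fixedPts G B) ≠ 0) :
    (nsmulAddMonoidHom (α := ↥(FixedPoints.addSubgroup G B)) n).range.FiniteIndex := by
  set A := fixedPts G B with hA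
  have h1 : (nsmulFixed (G := G) (B := B) n) ≤ fixedDiv (G := G) (B := B) n := nsmulFixed_le_fixedDiv
  have h2 : fixedDiv (G := G) (B := B) n ≤ A := inf_le_left
  have h3 : K₁ ⊓ A ≤ fixedDiv (G := G) (B := B) n := by
    rintro x ⟨hx1, hx2⟩
    exact mem_fixedDiv.2 ⟨hx2, hK2 x hx1 hx2⟩
  have h4 : (fixedDiv (G := G) (B := B) n).relIndex A ≠ 0 := by
    intro h0
    have := AddSubgroup.relIndex_dvd_of_le_left A h3
    rw [h0, zero_dvd_iff] at this
    exact hcl this
  have h5 := relIndex_kummer_ne_zero h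
  have h6 : (nsmulFixed (G := G) (B := B) n).relIndex A ≠ 0 := by
    rw [← AddSubgroup.relIndex_mul_relIndex _ _ _ h1 h2]
    exact Nat.mul_ne_zero h5 h4
  rw [AddSubgroup.finiteIndex_iff]
  show (nsmulAddMonoidHom (α := ↥(fixedPts G B)) n).range.index ≠ 0
  rw [range_nsmul_fixedPts]
  exact h6

end Assembly

end

end Fermat.Agent.GR.W.KummerAbs
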