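/-
GATE-R (S17) / node (W) weak Mordell–Weil, `G_ℚ`-form for an ODD descent prime `p` (helper79).

`KummerAbs.finiteIndex_nsmul_fixedPoints` with `G = G_ℚ`, `𝒰 = levelS S`, `n = p` odd, `p ∈ S`:
the finiteness of `H¹(G_S, M)` is `GP/GW/NineTermExport.hlc_finite_of_odd` (on main,
unconditional), so the only binders left are the torsion model `M ≅ B[p]` (with level-constant
Kummer cocycles), (K2) and (CL).
-/
import Fermat.Agent.GR.W.KummerAbs
import Fermat.Agent.GP.GW.NineTermExport

set_option autoImplicit false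

namespace Fermat.Agent.GR.W.KummerOdd

open Fermat.Agent.GC.Prof Fermat.Agent.GC.C0 Fermat.Agent.GR.W.KummerAbs ExtCitation

noncomputable section

variable {p : ℕ} [Fact p.Prime] {S : Finset Nat.Primes}
variable {B : Type} [AddCommGroup B] [DistribMulAction GQ B]
variable {M : Rep (ZMod p) GQ} [FiniteDimensional (ZMod p) M] [IsDiscrete (levelS S) M]
variable {ι : M →+ B}

/-- `H¹(G_S, M)` is a finite set (`p` odd, `p ∈ S`, `M` finite-dimensional discrete). -/
theorem finite_hlc_one (hp2 : p ≠ 2) (hpS : pPrime p ∈ S) : Finite (Hlc (levelS S) M 1) := by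
  have hT : IsDiscrete (levelS S) (TChi p) := isDiscrete_TChi S hpS
  have hfd : FiniteDimensional (ZMod p) (Hlc (levelS S) M 1) :=
    (Fermat.Agent.GP.GW.NineTermExport.hlc_finite_of_odd hp2 hpS M).1 1 (by norm_num)
  exact Module.finite_of_finite (ZMod p)

/-- **weak Mordell–Weil over `ℚ` for an odd prime `p`** (abstract `B`): `[B^{G_ℚ} : p B^{G_ℚ}] < ∞`
in the shape of the binder `H₁` of Mathlib's `AddCommGroup.fg_of_descent`. -/
theorem finiteIndex_nsmul_fixedPoints_of_odd (hp2 : p ≠ 2) (hpS : pPrime p ∈ S)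
    (h : TorsionModel (levelS S) (n := p) M ι) (K₁ : AddSubgroup B)
    (hK2 : ∀ x ∈ K₁, (∀ σ : GQ, σ • x = x) → ∃ y : B, p • y = x)
    (hcl : (K₁ ⊓ fixedPts GQ B).relIndex (fixedPts GQ B) ≠ 0) :
    (nsmulAddMonoidHom (α := ↥(FixedPoints.addSubgroup GQ B)) p).range.FiniteIndex := by
  have := finite_hlc_one (M := M) hp2 hpS
  exact finiteIndex_nsmul_fixedPoints h K₁ hK2 hcl

end

end Fermat.Agent.GR.W.KummerOdd
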