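/-
GATE-R (S17) / node GR-W-ASM (helper79): **weak Mordell–Weil for `J₀(N)(ℚ)`**, assembly in
hypothesis form.

`A := FixedPoints.addSubgroup G_ℚ (JZero N)`.  From the four node contracts of board 4570

* TORSREP    : `M ≅ JZero N [p]` a finite-dimensional discrete `Rep (ZMod p) G_ℚ` for `levelS S`,
* KUMMER-UNR : Kummer cocycles `σ ↦ σ y - y` (`p y ∈ A`) are level-constant for `levelS S`
  (both packaged in `KummerAbs.TorsionModel`),
* K2         : rational classes in the kernel of the reduction `red` are `p`-divisible in `JZero N`,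
* REDFIN     : `red '' A` is finite,

we get `[A : p A] < ∞` in the shape of the binder `H₁` of Mathlib's `AddCommGroup.fg_of_descent`.

* `relIndex_ker_ne_zero_of_finite_image` : the adapter REDFIN ⟹ `hcl` (abstract).
* `weakMW_of_red` : abstract `B`, any reduction hom `red : B →+ C`.
* `weakMW_JZero` : `B := JZero N`, `red := reductionModL 𝒜 N`.
-/
import Fermat.Agent.GR.W.KummerOdd
import Fermat.Prelude.Def_ModularCurve_ReductionModL

set_option autoImplicit false

namespace Fermat.Agent.GR.W.Asm

open Fermat.Agent.GC.Prof Fermat.Agent.GC.C0 Fermat.Agent.GR.W.KummerAbs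
  Fermat.Agent.GR.W.KummerOdd ExtCitation ModularCurve AlgebraicCurve

noncomputable section

section Adapter

variable {B C : Type*} [AddCommGroup B] [AddCommGroup C]

/-- **REDFIN ⟹ (CL)**: if the image of `A` under a homomorphism `red` is finite, then
`ker red ∩ A` has finite index in `A`. -/
theorem relIndex_ker_ne_zero_of_finite_image (red : B →+ C) (A : AddSubgroup B)
    (hfin : (red '' (A : Set B)).Finite) : (red.ker ⊓ A).relIndex A ≠ 0 := by
  classical
  rw [AddSubgroup.inf_relIndex_right]
  set H := red.ker.addSubgroupOf A with hH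
  have hF : Finite (red '' (A : Set B)) := hfin.to_subtype
  let f : A ⧸ H → (red '' (A : Set B)) := fun q => ⟨red (q.out : B), ⟨_, q.out.2, rfl⟩⟩
  have hf : Function.Injective f := by
    intro q q' hqq'
    have h1 : red (q.out : B) = red (q'.out : B) := congrArg Subtype.val hqq'
    have h2 : (QuotientAddGroup.mk q.out : A ⧸ H) = QuotientAddGroup.mk q'.out := by
      rw [QuotientAddGroup.eq]
      show ((-q.out + q'.out : A) : B) ∈ red.ker
      rw [AddMonoidHom.mem_ker, AddSubgroup.coe_add, AddSubgroup.coe_neg, map_add, map_neg, h1,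
        neg_add_cancel]
    rw [QuotientAddGroup.out_eq', QuotientAddGroup.out_eq'] at h2
    exact h2
  have hfinQ : Finite (A ⧸ H) := Finite.of_injective f hf
  exact AddSubgroup.index_ne_zero_of_finite

end Adapter

section Abstract

variable {p : ℕ} [Fact p.Prime] {S : Finset Nat.Primes}
variable {B : Type} [AddCommGroup B] [DistribMulAction GQ B]
variable {M : Rep (ZMod p) GQ} [FiniteDimensional (ZMod p) M] [IsDiscrete (levelS S) M]
variable {ι : M →+ B}

/-- **weak Mordell–Weil, abstract `B` with a reduction hom** (odd `p`). -/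
theorem weakMW_of_red (hp2 : p ≠ 2) (hpS : pPrime p ∈ S)
    (h : TorsionModel (levelS S) (n := p) M ι)
    {C : Type*} [AddCommGroup C] (red : B →+ C)
    (hK2 : ∀ x : B, red x = 0 → (∀ σ : GQ, σ • x = x) → ∃ y : B, p • y = x)
    (hfin : (red '' (fixedPts GQ B : Set B)).Finite) :
    (nsmulAddMonoidHom (α := ↥(FixedPoints.addSubgroup GQ B)) p).range.FiniteIndex :=
  finiteIndex_nsmul_fixedPoints_of_odd hp2 hpS h red.ker
    (fun x hx hσ => hK2 x (AddMonoidHom.mem_ker.1 hx) hσ)
    (relIndex_ker_ne_zero_of_finite_image red (fixedPts GQ B) hfin)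

end Abstract

section JZeroForm

variable (N : ℕ) {p : ℕ} [Fact p.Prime] {S : Finset Nat.Primes}
variable {M : Rep (ZMod p) GQ} [FiniteDimensional (ZMod p) M] [IsDiscrete (levelS S) M]
variable {ι : M →+ JZero N}

/-- **weak Mordell–Weil for `J₀(N)(ℚ)`** from the node contracts TORSREP + KUMMER-UNR (`h`),
K2 (`hK2`) and REDFIN (`hfin`) for the reduction `reductionModL 𝒜 N` at one place `𝒜` of `ℚ̄`. -/
theorem weakMW_JZero (hp2 : p ≠ 2) (hpS : pPrime p ∈ S)
    (h : TorsionModel (levelS S) (n := p) M ι)
    (𝒜 : ValuationSubring (AlgebraicClosure ℚ))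
    (hK2 : ∀ x : JZero N, reductionModL 𝒜 N x = 0 → (∀ σ : GQ, σ • x = x) →
      ∃ y : JZero N, p • y = x)
    (hfin : ((reductionModL 𝒜 N) '' (FixedPoints.addSubgroup GQ (JZero N) : Set (JZero N))).Finite) :
    (nsmulAddMonoidHom
      (α := ↥(FixedPoints.addSubgroup ((AlgebraicClosure ℚ) ≃ₐ[ℚ] (AlgebraicClosure ℚ)) (JZero N)))
      p).range.FiniteIndex :=
  weakMW_of_red hp2 hpS h (reductionModL 𝒜 N) hK2 hfin

end JZeroForm

end

end Fermat.Agent.GR.W.Asm
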