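/-
GATE-R (S17, Mordell–Weil for `J₀(N)`) / node GR-W-KUMMER-UNR (helper12).

The `hlc` binder of `GR/W/KummerAbs.TorsionModel` for `B := JZero N`:
for `y : JZero N` with `p • y` rational, the Kummer cocycle `σ ↦ σ • y - y` is level-constant for
`levelS S`, as soon as `S ∋ 2, 3, p` and the primes dividing `N`.

* (A) PLACE-LEVEL: every place of `ℚ̄(X₀(N))`, every divisor and every class of `JZero N` has a
  stabiliser of finite level (`GJ/FiniteLevel.HasLevel`).  The new input (compared with the torsion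
  case of `GJ/FiniteLevel`) is Riemann's theorem (`RR/ModularBar.riemann`): every place `P` is the
  only pole of some function `f`, and a `σ` fixing `f` fixes `P`.
* (B) INERTIA: for a prime `q ∉ S` and `σ` in the inertia group of a place `𝒜 ∣ q` of `ℚ̄`, the
  class `t = σ • y - y` is `p`-torsion and reduces to `0` at `𝒜` (binder `hred`, the corollary of
  node REDEQUIV), hence `t = 0` by `S18.result` (`q ∤ p N`).
* (C) ASSEMBLY: the stabiliser of `y` is open and contains the inertia groups outside `S`, so it is a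
  member of `levelS S` (`GC/C0/Level.mem_levelS_of_isOpen_of_inertia_le`).
-/
import Fermat.Agent.S18
import Fermat.Agent.GJ.FiniteLevel
import Fermat.Agent.RR.ModularBar
import Fermat.Agent.GC.C0.Level
import Fermat.Agent.GC.Prof.Low
import Fermat.Agent.GJ.S37.LSpaceGateProof
import Fermat.Agent.GR.W.KummerAbs

set_option autoImplicit false

noncomputable section

open ModularCurve AlgebraicCurve IntermediateField

namespace Fermat.Agent.GR.W.KummerUnr

open Fermat.Agent.GJ.FiniteLevel Fermat.Agent.GC.Prof Fermat.Agent.GC.C0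

local notation "Qb" => AlgebraicClosure ℚ
local notation "GQ" => (AlgebraicClosure ℚ ≃ₐ[ℚ] AlgebraicClosure ℚ)

/-! ### (A0) a function with a single pole, from Riemann's theorem -/

section SinglePole

variable {K F : Type*} [Field K] [Field F] [Algebra K F]

/-- From the large-degree part of Riemann's theorem: every place `P` of degree one is the only pole
of some function. -/
theorem exists_single_pole (P : Place K F) (hdeg : P.deg = 1) (g c : ℤ)
    (hR : ∀ D : Divisor K F, c ≤ Divisor.degree D →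
      (Module.finrank K (riemannRochSpace D) : ℤ) = Divisor.degree D + 1 - g) :
    ∃ f : F, P.ord f < 0 ∧ ∀ v : Place K F, v ≠ P → 0 ≤ v.ord f := by
  classical
  by_contra hcon
  push Not at hcon
  set n : ℤ := max c 0 with hn
  have hn0 : 0 ≤ n := le_max_right _ _
  have hnc : c ≤ n := le_max_left _ _
  have hd1 : Divisor.degree (Finsupp.single P n : Divisor K F) = n := by
    rw [Divisor.degree_single, hdeg]; simp
  have hd2 : Divisor.degree (Finsupp.single P (n + 1) : Divisor K F) = n + 1 := by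
    rw [Divisor.degree_single, hdeg]; simp
  have h1 := hR (Finsupp.single P n) (by rw [hd1]; exact hnc)
  have h2 := hR (Finsupp.single P (n + 1)) (by rw [hd2]; linarith)
  rw [hd1] at h1
  rw [hd2] at h2
  have hle : riemannRochSpace (Finsupp.single P (n + 1) : Divisor K F) ≤
      riemannRochSpace (Finsupp.single P n : Divisor K F) := by
    intro f hf
    rw [mem_riemannRochSpace_iff] at hf ⊢
    intro v
    by_cases hf0 : f = 0
    · exact Or.inl hf0
    refine Or.inr ?_
    have hothers : ∀ w : Place K F, w ≠ P → 0 ≤ w.ord f := by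
      intro w hw
      rcases hf w with h | h
      · exact absurd h hf0
      · rwa [Finsupp.single_eq_of_ne hw, neg_zero] at h
    by_cases hv : v = P
    · subst hv
      rw [Finsupp.single_eq_same]
      by_contra hlt
      push Not at hlt
      obtain ⟨w, hw, hwlt⟩ := hcon f (by linarith)
      exact absurd (hothers w hw) (not_le.mpr hwlt)
    · rw [Finsupp.single_eq_of_ne hv, neg_zero]
      exact hothers v hv
  have hge : riemannRochSpace (Finsupp.single P n : Divisor K F) ≤
      riemannRochSpace (Finsupp.single P (n + 1) : Divisor K F) := by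
    intro f hf
    rw [mem_riemannRochSpace_iff] at hf ⊢
    intro v
    rcases hf v with h | h
    · exact Or.inl h
    · refine Or.inr (le_trans ?_ h)
      by_cases hv : v = P
      · subst hv
        rw [Finsupp.single_eq_same, Finsupp.single_eq_same]; linarith
      · rw [Finsupp.single_eq_of_ne hv, Finsupp.single_eq_of_ne hv]
  have heq := le_antisymm hle hge
  rw [heq] at h2
  linarith

end SinglePole

/-! ### (A) finite level of places, divisors and classes of `ℚ̄(X₀(N))` -/

section Level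

variable (N : ℕ) [NeZero N]

/-- Every place of `ℚ̄(X₀(N))` is the only pole of some function. -/
theorem exists_single_pole_modular (P : Place Qb (modularFunctionFieldBar N)) :
    ∃ f : modularFunctionFieldBar N, P.ord f < 0 ∧
      ∀ v : Place Qb (modularFunctionFieldBar N), v ≠ P → 0 ≤ v.ord f := by
  obtain ⟨g, -, -, c, hc⟩ := Fermat.Agent.RR.ModularBar.riemann N
  exact exists_single_pole P (Fermat.Agent.RR.ModularBar.deg_eq_one N P) g c hc

/-- (A1) The stabiliser of a place of `ℚ̄(X₀(N))` has finite level. -/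
theorem hasLevel_smul_place (P : Place Qb (modularFunctionFieldBar N)) :
    HasLevel (fun σ => arithmeticGalois (modularFunctionFieldFull N) σ • P = P) := by
  obtain ⟨f, hfP, hf⟩ := exists_single_pole_modular N P
  refine (hasLevel_arithmeticGalois_smul_eq (modularFunctionFieldFull N) f).mono fun σ hσ => ?_
  by_contra hne
  have h1 := SemilinearAut.ord_smul (arithmeticGalois (modularFunctionFieldFull N) σ) P f
  rw [hσ] at h1
  have h2 := hf _ hne
  rw [h1] at h2
  exact absurd h2 (not_le.mpr hfP)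

/-- (A2) The stabiliser of a divisor of `ℚ̄(X₀(N))` has finite level. -/
theorem hasLevel_smul_divisor (D : Divisor Qb (modularFunctionFieldBar N)) :
    HasLevel (fun σ => arithmeticGalois (modularFunctionFieldFull N) σ • D = D) := by
  induction D using Finsupp.induction with
  | zero => exact hasLevel_of_forall fun σ => smul_zero _
  | single_add v n D _ _ ih =>
      refine ((hasLevel_smul_place N v).and ih).mono fun σ h => ?_
      rw [smul_add, SemilinearAut.smul_single, h.1, h.2]

/-- (A3) The stabiliser of a class of `JZero N` has finite level. -/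
theorem hasLevel_smul_jzero (y : JZero N) : HasLevel (fun σ => σ • y = y) := by
  obtain ⟨D, rfl⟩ := Pic0.mk_surjective y
  refine (hasLevel_smul_divisor N (D : Divisor Qb (modularFunctionFieldBar N))).mono fun σ hfix => ?_
  rw [galois_smul_pic0_def, SemilinearAut.pic0_smul_mk]
  exact congrArg Pic0.mk (Subtype.ext (by rw [SemilinearAut.coe_degZeroSMulHom, hfix]))

/-- (A4) The stabiliser of a class of `JZero N` is open in `G_ℚ`. -/
theorem isOpen_stabilizer_jzero (y : JZero N) :
    IsOpen ((MulAction.stabilizer GQ y : Subgroup GQ) : Set GQ) := by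
  obtain ⟨E, hE, hfix⟩ := hasLevel_smul_jzero N y
  have hle : E.fixingSubgroup ≤ MulAction.stabilizer GQ y := by
    intro σ hσ
    rw [MulAction.mem_stabilizer_iff]
    refine hfix σ fun a ha => ?_
    exact (IntermediateField.mem_fixingSubgroup_iff E σ).1 hσ a ha
  exact Subgroup.isOpen_mono hle ((InfiniteGalois.isOpen_iff_finite E).2 hE)

end Level

/-! ### (B) inertia outside `S` acts trivially on `p`-division points of rational classes -/

section Inertia

variable (N : ℕ) [NeZero N]

/-- The REDEQUIV corollary used here, as a hypothesis: reduction at a place `𝒜 ∣ q` of `ℚ̄`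
(`q ≥ 5`, `q ∤ N`) does not see the inertia group of `𝒜`. -/
def RedInertia : Prop :=
  ∀ {q : ℕ}, q.Prime → 5 ≤ q → ¬ q ∣ N → ∀ 𝒜 : ValuationSubring Qb, 𝒜.LiesOverPrime q →
    ∀ σ : GQ, σ ∈ 𝒜.inertiaSubgroupIn ℚ → ∀ x : JZero N,
      reductionModL 𝒜 N (σ • x) = reductionModL 𝒜 N x

variable {N}

/-- (B) If `p • y` is rational, `q ∤ p N` (`q ≥ 5`) and `σ` is in the inertia group of a place
`𝒜 ∣ q`, then `σ • y = y`. -/
theorem smul_eq_of_mem_inertia (hred : RedInertia N) {p q : ℕ} (hq : q.Prime) (hq5 : 5 ≤ q)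
    (hqN : ¬ q ∣ N) (hqp : ¬ q ∣ p) (𝒜 : ValuationSubring Qb) (h𝒜 : 𝒜.LiesOverPrime q)
    {y : JZero N} (hy : ∀ σ : GQ, σ • (p • y) = p • y) {σ : GQ}
    (hσ : σ ∈ 𝒜.inertiaSubgroupIn ℚ) : σ • y = y := by
  have : Fact q.Prime := ⟨hq⟩
  obtain ⟨h, -⟩ := Fermat.Agent.GJ.S37LSpaceGate.levelPackage N hq hqN
    (fun h2 => by omega) (fun h3 => by omega) 𝒜 h𝒜
  have h1 : p • (σ • y) = σ • (p • y) :=
    (map_nsmul (DistribSMul.toAddMonoidHom (JZero N) σ) p y).symm
  have hpt : p • (σ • y - y) = 0 := by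
    rw [nsmul_sub, h1, hy σ, sub_self]
  have hz : reductionModL 𝒜 N (σ • y - y) = 0 := by
    rw [map_sub, hred hq hq5 hqN 𝒜 h𝒜 σ hσ y, sub_self]
  exact sub_eq_zero.1 (Fermat.Agent.S18.result N hqN 𝒜 h𝒜 h p hqp (σ • y - y) hpt hz)

end Inertia

/-! ### (C) the Kummer cocycle is level-constant for `levelS S` -/

section Assembly

variable {N : ℕ} [NeZero N] (S : Finset Nat.Primes)

/-- The stabiliser of a `p`-division point `y` of a rational class is a member of `levelS S`
(`S ∋ 2, 3, p` and the primes dividing `N`). -/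
theorem stabilizer_mem_levelS (hred : RedInertia N) {p : ℕ} (hp : p.Prime)
    (h2 : (⟨2, Nat.prime_two⟩ : Nat.Primes) ∈ S) (h3 : (⟨3, Nat.prime_three⟩ : Nat.Primes) ∈ S)
    (hpS : (⟨p, hp⟩ : Nat.Primes) ∈ S) (hNS : ∀ q : Nat.Primes, (q : ℕ) ∣ N → q ∈ S)
    {y : JZero N} (hy : ∀ σ : GQ, σ • (p • y) = p • y) :
    MulAction.stabilizer GQ y ∈ (levelS S).sets := by
  refine mem_levelS_of_isOpen_of_inertia_le S _ (isOpen_stabilizer_jzero N y)
    fun q hqS 𝒜 h𝒜 σ hσ => ?_
  rw [MulAction.mem_stabilizer_iff]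
  have hq : (q : ℕ).Prime := q.2
  have hq2 : (q : ℕ) ≠ 2 := fun h => hqS (by
    have : q = ⟨2, Nat.prime_two⟩ := Subtype.ext h
    rw [this]; exact h2)
  have hq3 : (q : ℕ) ≠ 3 := fun h => hqS (by
    have : q = ⟨3, Nat.prime_three⟩ := Subtype.ext h
    rw [this]; exact h3)
  have hq4 : (q : ℕ) ≠ 4 := fun h => by
    rw [h] at hq; exact absurd hq (by decide)
  have hq5 : 5 ≤ (q : ℕ) := by
    have := hq.two_le
    omega
  have hqN : ¬ (q : ℕ) ∣ N := fun h => hqS (hNS q h)
  have hqp : ¬ (q : ℕ) ∣ p := fun h => hqS (by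
    have : q = ⟨p, hp⟩ := Subtype.ext ((Nat.prime_dvd_prime_iff_eq hq hp).1 h)
    rw [this]; exact hpS)
  exact smul_eq_of_mem_inertia hred hq hq5 hqN hqp 𝒜 h𝒜 hy hσ

/-- **GR-W-KUMMER-UNR**: the `hlc` binder of `GR/W/KummerAbs.TorsionModel` for `B := JZero N`. -/
theorem kummer_isLC₁ (hred : RedInertia N) {p : ℕ} (hp : p.Prime)
    (h2 : (⟨2, Nat.prime_two⟩ : Nat.Primes) ∈ S) (h3 : (⟨3, Nat.prime_three⟩ : Nat.Primes) ∈ S)
    (hpS : (⟨p, hp⟩ : Nat.Primes) ∈ S) (hNS : ∀ q : Nat.Primes, (q : ℕ) ∣ N → q ∈ S)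
    (y : JZero N) (hy : ∀ σ : GQ, σ • (p • y) = p • y) :
    IsLC₁ (levelS S) (fun σ : GQ => σ • y - y) := by
  refine ⟨MulAction.stabilizer GQ y, stabilizer_mem_levelS S hred hp h2 h3 hpS hNS hy,
    fun g s hs => ?_⟩
  show (g * s) • y - y = g • y - y
  rw [mul_smul, MulAction.mem_stabilizer_iff.1 hs]

/-- The same statement in the `[Fact p.Prime]` / `pPrime p ∈ S` spelling of `GR/W/KummerOdd`:
literally the field `hlc` of `KummerAbs.TorsionModel (levelS S) (n := p) M ι` for `B := JZero N`. -/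
theorem kummer_hlc (hred : RedInertia N) {p : ℕ} [Fact p.Prime]
    (h2 : (⟨2, Nat.prime_two⟩ : Nat.Primes) ∈ S) (h3 : (⟨3, Nat.prime_three⟩ : Nat.Primes) ∈ S)
    (hpS : ExtCitation.pPrime p ∈ S) (hNS : ∀ q : Nat.Primes, (q : ℕ) ∣ N → q ∈ S) :
    ∀ y : JZero N, (∀ σ : GQ, σ • (p • y) = p • y) →
      IsLC₁ (levelS S) (fun σ : GQ => σ • y - y) :=
  fun y hy => kummer_isLC₁ S hred Fact.out h2 h3 hpS hNS y hy

/-- Torsion special case (for node TORSREP): the stabiliser of a `p`-torsion class is a member of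
`levelS S`. -/
theorem stabilizer_mem_levelS_of_torsion (hred : RedInertia N) {p : ℕ} (hp : p.Prime)
    (h2 : (⟨2, Nat.prime_two⟩ : Nat.Primes) ∈ S) (h3 : (⟨3, Nat.prime_three⟩ : Nat.Primes) ∈ S)
    (hpS : (⟨p, hp⟩ : Nat.Primes) ∈ S) (hNS : ∀ q : Nat.Primes, (q : ℕ) ∣ N → q ∈ S)
    {y : JZero N} (hy : p • y = 0) : MulAction.stabilizer GQ y ∈ (levelS S).sets :=
  stabilizer_mem_levelS S hred hp h2 h3 hpS hNS fun σ => by
    rw [hy]; exact smul_zero (A := JZero N) σ

/-- Assembly of `KummerAbs.TorsionModel` for `B := JZero N` from the four TORSREP fields. -/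
theorem torsionModel_jzero (hred : RedInertia N) {p : ℕ} [Fact p.Prime]
    (h2 : (⟨2, Nat.prime_two⟩ : Nat.Primes) ∈ S) (h3 : (⟨3, Nat.prime_three⟩ : Nat.Primes) ∈ S)
    (hpS : ExtCitation.pPrime p ∈ S) (hNS : ∀ q : Nat.Primes, (q : ℕ) ∣ N → q ∈ S)
    {M : Rep.{0} (ZMod p) GQ} [IsDiscrete (levelS S) M] {ι : M →+ JZero N}
    (hinj : Function.Injective ι) (hkill : ∀ m : M, p • ι m = 0)
    (htors : ∀ t : JZero N, p • t = 0 → ∃ m : M, ι m = t)
    (hequiv : ∀ (σ : GQ) (m : M), ι (M.ρ σ m) = σ • ι m) :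
    Fermat.Agent.GR.W.KummerAbs.TorsionModel (levelS S) (n := p) M ι :=
  ⟨hinj, hkill, htors, hequiv, kummer_hlc S hred h2 h3 hpS hNS⟩

end Assembly

end Fermat.Agent.GR.W.KummerUnr
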