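/-
GATE-R / S17 (W) — node GR-W-REDEQUIV-INERTIA (helper75): the INERTIA COROLLARY of REDEQUIV,
binder-free, in the exact shape consumed by `GR/W/KummerUnr.lean` (helper12, board 4601):

  `ℓ ≥ 5` prime, `ℓ ∤ N`, `𝒜` a valuation subring of `ℚ̄` over `ℓ`, `σ` in the inertia group of `𝒜`
  ⟹ `reductionModL 𝒜 N (σ • x) = reductionModL 𝒜 N x` for every `x : JZero N`.

Proof: `GJ/S37/LSpaceGateProof.levelPackage` (reduction inputs + uniqueness of the place reduction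
map, a THEOREM on main) + `GJ/S37/UniqRed2.reductionModL_smul_of_inertia_of_uniq`.

Also the two variants with the level-package side conditions `ℓ = 2 → 3 ∣ N`, `ℓ = 3 → 2 ∣ N`
instead of `5 ≤ ℓ`, and the Frobenius-lift form (for `GR/W/RedFin*.lean`).
-/
import Fermat.Agent.GJ.S37.LSpaceGateProof
import Fermat.Agent.GJ.S37.UniqRed2

set_option autoImplicit false

namespace Fermat.Agent.GR.W.RedEquivInertia

open ModularCurve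

/-- **REDEQUIV, inertia corollary (general side conditions).** -/
theorem reductionModL_smul_of_mem_inertia' {ℓ N : ℕ} [NeZero N] (hℓ : ℓ.Prime) (hN : ¬ ℓ ∣ N)
    (h2 : ℓ = 2 → 3 ∣ N) (h3 : ℓ = 3 → 2 ∣ N)
    (𝒜 : ValuationSubring (AlgebraicClosure ℚ)) (h𝒜 : 𝒜.LiesOverPrime ℓ)
    (σ : AlgebraicClosure ℚ ≃ₐ[ℚ] AlgebraicClosure ℚ) (hσ : σ ∈ 𝒜.inertiaSubgroupIn ℚ)
    (x : JZero N) : reductionModL 𝒜 N (σ • x) = reductionModL 𝒜 N x := by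
  obtain ⟨h, huniq⟩ := Fermat.Agent.GJ.S37LSpaceGate.levelPackage N hℓ hN h2 h3 𝒜 h𝒜
  exact Fermat.Agent.GJ.S37Uniq2.reductionModL_smul_of_inertia_of_uniq h huniq σ hσ x

/-- **REDEQUIV, inertia corollary** in the binder shape of helper12 (board 4601). -/
theorem reductionModL_smul_of_mem_inertia {N : ℕ} [NeZero N] {ℓ : ℕ} (hℓ : ℓ.Prime) (h5 : 5 ≤ ℓ)
    (hN : ¬ ℓ ∣ N) (𝒜 : ValuationSubring (AlgebraicClosure ℚ)) (h𝒜 : 𝒜.LiesOverPrime ℓ)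
    (σ : AlgebraicClosure ℚ ≃ₐ[ℚ] AlgebraicClosure ℚ) (hσ : σ ∈ 𝒜.inertiaSubgroupIn ℚ)
    (x : JZero N) : reductionModL 𝒜 N (σ • x) = reductionModL 𝒜 N x :=
  reductionModL_smul_of_mem_inertia' hℓ hN (fun h => by omega) (fun h => by omega) 𝒜 h𝒜 σ hσ x

/-- the kernel of the reduction map is stable under inertia. -/
theorem reductionModL_smul_eq_zero_of_mem_inertia {N : ℕ} [NeZero N] {ℓ : ℕ} (hℓ : ℓ.Prime)
    (h5 : 5 ≤ ℓ) (hN : ¬ ℓ ∣ N) (𝒜 : ValuationSubring (AlgebraicClosure ℚ))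
    (h𝒜 : 𝒜.LiesOverPrime ℓ)
    (σ : AlgebraicClosure ℚ ≃ₐ[ℚ] AlgebraicClosure ℚ) (hσ : σ ∈ 𝒜.inertiaSubgroupIn ℚ)
    (x : JZero N) (hx : reductionModL 𝒜 N x = 0) : reductionModL 𝒜 N (σ • x) = 0 := by
  rw [reductionModL_smul_of_mem_inertia hℓ h5 hN 𝒜 h𝒜 σ hσ x, hx]

/-- `σ • x - x` reduces to `0` for `σ` in inertia. -/
theorem reductionModL_smul_sub_self_of_mem_inertia {N : ℕ} [NeZero N] {ℓ : ℕ} (hℓ : ℓ.Prime)
    (h5 : 5 ≤ ℓ) (hN : ¬ ℓ ∣ N) (𝒜 : ValuationSubring (AlgebraicClosure ℚ))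
    (h𝒜 : 𝒜.LiesOverPrime ℓ)
    (σ : AlgebraicClosure ℚ ≃ₐ[ℚ] AlgebraicClosure ℚ) (hσ : σ ∈ 𝒜.inertiaSubgroupIn ℚ)
    (x : JZero N) : reductionModL 𝒜 N (σ • x - x) = 0 := by
  rw [map_sub, reductionModL_smul_of_mem_inertia hℓ h5 hN 𝒜 h𝒜 σ hσ x, sub_self]

end Fermat.Agent.GR.W.RedEquivInertia
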