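/-
GATE-R / GR-W-TORSREP (helper18): the Galois module `J₀(N)(ℚ̄)[p]` as a discrete finite-dimensional
`Rep (ZMod p) G_ℚ` for the level system `levelS S` (`S ∋ 2, 3, p`, primes dividing `N`), in the
binder shape of helper79's abstract weak Mordell–Weil core `GR/W/KummerAbs.lean`
(`M`, `ι`, `hinj`, `htors`, `hequiv`, `[FiniteDimensional]`, `[IsDiscrete (levelS S) M]`).

Inputs (all on main): the torsion count `GH/TorsionCount` (finiteness), `GH/TorsionLevel`
(finite level), `S18.result` (the reduction is injective on prime-to-`q` torsion), the S37 level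
package (`ReductionInputsModL` + uniqueness) and `reductionModL_smul_of_inertia_of_uniq`
(inertia acts trivially through the reduction), `GC/C0/Level.isDiscrete_levelS`.

Also exported, for KUMMER-UNR: `smul_eq_of_mem_inertia` (inertia at `q ∤ N m` fixes `J₀(N)[m]`) and
`smul_sub_eq_zero_of_mem_inertia` (for ANY `y` with `σ • y - y` killed by `m`).
-/
import Mathlib
import Fermat.Agent.GH.TorsionLevel
import Fermat.Agent.S18
import Fermat.Agent.GJ.S37.LSpaceGateProof
import Fermat.Agent.GJ.S37.UniqRed2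
import Fermat.Agent.GC.C0.Level
import Fermat.Agent.GR.W.KummerAbs

set_option autoImplicit false
set_option linter.unusedSectionVars false

open AlgebraicCurve ModularCurve

noncomputable section

namespace Fermat.Agent.GR.W.TorsRep

open Fermat.Agent.GC.Prof Fermat.Agent.GC.C0

variable (N : ℕ) [NeZero N]

/-! ### inertia at a good prime acts trivially on prime-to-`ℓ` torsion -/

/-- if `z` is killed by `m` prime to `ℓ` and `z = σ • y - y` with `σ` in the inertia group of a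
place `A` over `ℓ ∤ N`, then `z = 0`. -/
theorem smul_sub_eq_zero_of_mem_inertia {ℓ : ℕ} (hℓ : ℓ.Prime) (hℓN : ¬ ℓ ∣ N)
    (h2 : ℓ = 2 → 3 ∣ N) (h3 : ℓ = 3 → 2 ∣ N)
    (A : ValuationSubring (AlgebraicClosure ℚ)) (hA : A.LiesOverPrime ℓ) {σ : GQ}
    (hσ : σ ∈ A.inertiaSubgroupIn ℚ) (m : ℕ) (hm : ¬ ℓ ∣ m) (y : JZero N)
    (hy : m • (σ • y - y) = 0) : σ • y = y := by
  have : Fact ℓ.Prime := ⟨hℓ⟩
  obtain ⟨h, huniq⟩ := Fermat.Agent.GJ.S37LSpaceGate.levelPackage N hℓ hℓN h2 h3 A hA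
  have hred : reductionModL A N (σ • y - y) = 0 := by
    rw [map_sub, Fermat.Agent.GJ.S37Uniq2.reductionModL_smul_of_inertia_of_uniq h huniq σ hσ y,
      sub_self]
  exact sub_eq_zero.1 (Fermat.Agent.S18.result N hℓN A hA h m hm (σ • y - y) hy hred)

/-- **inertia at `ℓ ∤ N m` fixes `J₀(N)[m]` pointwise.** -/
theorem smul_eq_of_mem_inertia {ℓ : ℕ} (hℓ : ℓ.Prime) (hℓN : ¬ ℓ ∣ N)
    (h2 : ℓ = 2 → 3 ∣ N) (h3 : ℓ = 3 → 2 ∣ N)
    (A : ValuationSubring (AlgebraicClosure ℚ)) (hA : A.LiesOverPrime ℓ) {σ : GQ}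
    (hσ : σ ∈ A.inertiaSubgroupIn ℚ) (m : ℕ) (hm : ¬ ℓ ∣ m) (x : JZero N)
    (hx : m • x = 0) : σ • x = x := by
  refine smul_sub_eq_zero_of_mem_inertia N hℓ hℓN h2 h3 A hA hσ m hm x ?_
  rw [nsmul_sub, smul_comm m σ x, hx, smul_zero, sub_zero]

/-! ### the representation -/

variable (p : ℕ) [Fact p.Prime]

/-- `J₀(N)(ℚ̄)[p]` as a representation of `G_ℚ` over `ZMod p` -/
def torsRep : Rep (ZMod p) GQ := Rep.of (JZero.torsionGaloisRep N p)

theorem torsRep_ρ (σ : GQ) : (torsRep N p).ρ σ = JZero.torsionGaloisRep N p σ := rfl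

instance : Finite (torsRep N p) :=
  Fermat.Agent.GH.TorsionCount.finite_torsion N p (Fact.out : p.Prime).ne_zero

instance : FiniteDimensional (ZMod p) (torsRep N p) := Module.Finite.of_finite

/-- the inclusion `J₀(N)[p] → J₀(N)` -/
def iota : torsRep N p →+ JZero N :=
  (Pic0.torsion (AlgebraicClosure ℚ) (modularFunctionFieldBar N) p).subtype

theorem iota_injective : Function.Injective (iota N p) := Subtype.val_injective

theorem iota_surj_torsion (t : JZero N) (ht : p • t = 0) : ∃ m : torsRep N p, iota N p m = t := by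
  refine ⟨⟨t, Pic0.mem_torsion.2 ?_⟩, rfl⟩
  rw [natCast_zsmul]
  exact ht

theorem nsmul_iota (m : torsRep N p) : p • iota N p m = 0 := by
  have h := (Pic0.mem_torsion (K := AlgebraicClosure ℚ) (F := modularFunctionFieldBar N)).1
    (m : Pic0.torsion (AlgebraicClosure ℚ) (modularFunctionFieldBar N) p).2
  rw [natCast_zsmul] at h
  exact h

theorem iota_equivariant (σ : GQ) (m : torsRep N p) :
    iota N p ((torsRep N p).ρ σ m) = σ • iota N p m :=
  JZero.coe_torsionGaloisRep_apply N σ m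

/-- every vector of `torsRep` is fixed by a finite-level subgroup -/
theorem exists_level (m : torsRep N p) :
    ∃ F : IntermediateField ℚ Qbar, FiniteDimensional ℚ F ∧
      ∀ s ∈ F.fixingSubgroup, (torsRep N p).ρ s m = m := by
  obtain ⟨E, hE, hfix⟩ := Fermat.Agent.GH.TorsionLevel.factorsThroughFiniteLevel_torsionGaloisRep
    N p (Fact.out : p.Prime).ne_zero
  refine ⟨E, hE, fun s hs => ?_⟩
  have h1 : JZero.torsionGaloisRep N p s = 1 :=
    hfix s fun x hx => (IntermediateField.mem_fixingSubgroup_iff E s).1 hs x hx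
  rw [torsRep_ρ, h1]
  rfl

/-- `torsRep` is unramified at the primes `q ≥ 5`, `q ∤ N p` -/
theorem ρ_eq_one_of_mem_inertia {q : ℕ} (hq : q.Prime) (hq2 : q ≠ 2) (hq3 : q ≠ 3)
    (hqN : ¬ q ∣ N) (hqp : q ≠ p) (A : ValuationSubring Qbar) (hA : A.LiesOverPrime q)
    {g : GQ} (hg : g ∈ A.inertiaSubgroupIn ℚ) : (torsRep N p).ρ g = 1 := by
  refine LinearMap.ext fun m => ?_
  apply iota_injective N p
  rw [iota_equivariant]
  have hqp' : ¬ q ∣ p := fun h =>
    hqp ((Nat.prime_dvd_prime_iff_eq hq (Fact.out : p.Prime)).1 h)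
  exact smul_eq_of_mem_inertia N hq hqN (fun h => absurd h hq2) (fun h => absurd h hq3) A hA hg p
    hqp' (iota N p m) (nsmul_iota N p m)

/-- **`torsRep N p` is discrete for `levelS S`** as soon as every prime outside `S` is `≠ 2, 3, p`
and prime to `N`. -/
theorem isDiscrete_torsRep_of (S : Finset Nat.Primes)
    (hS : ∀ q : Nat.Primes, q ∉ S → (q : ℕ) ≠ 2 ∧ (q : ℕ) ≠ 3 ∧ ¬ (q : ℕ) ∣ N ∧ (q : ℕ) ≠ p) :
    IsDiscrete (levelS S) (torsRep N p) :=
  isDiscrete_levelS S (torsRep N p) (exists_level N p) fun q hq A hA _ hg =>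
    ρ_eq_one_of_mem_inertia N p q.2 (hS q hq).1 (hS q hq).2.1 (hS q hq).2.2.1 (hS q hq).2.2.2 A hA hg

/-- **`torsRep N p` is discrete for `levelS S`**, `S ∋ 2, 3, p` and the primes dividing `N`. -/
theorem isDiscrete_torsRep (S : Finset Nat.Primes)
    (h2 : (⟨2, Nat.prime_two⟩ : Nat.Primes) ∈ S) (h3 : (⟨3, Nat.prime_three⟩ : Nat.Primes) ∈ S)
    (hp : (⟨p, Fact.out⟩ : Nat.Primes) ∈ S) (hN : ∀ q : Nat.Primes, (q : ℕ) ∣ N → q ∈ S) :
    IsDiscrete (levelS S) (torsRep N p) := by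
  refine isDiscrete_torsRep_of N p S fun q hq => ⟨?_, ?_, fun h => hq (hN q h), ?_⟩
  · intro h
    exact hq (by rwa [show q = ⟨2, Nat.prime_two⟩ from Subtype.ext h])
  · intro h
    exact hq (by rwa [show q = ⟨3, Nat.prime_three⟩ from Subtype.ext h])
  · intro h
    exact hq (by rwa [show q = ⟨p, Fact.out⟩ from Subtype.ext h])

/-- **helper79's `TorsionModel` for `J₀(N)[p]`** from the level-constancy of the Kummer cocycles
(`hlc` = node KUMMER-UNR) alone. -/
theorem torsionModel (S : Finset Nat.Primes)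
    (hlc : ∀ y : JZero N, (∀ σ : GQ, σ • (p • y) = p • y) →
      IsLC₁ (levelS S) (fun σ : GQ => σ • y - y)) :
    Fermat.Agent.GR.W.KummerAbs.TorsionModel (levelS S) (n := p) (torsRep N p) (iota N p) :=
  ⟨iota_injective N p, nsmul_iota N p, iota_surj_torsion N p, iota_equivariant N p, hlc⟩

end Fermat.Agent.GR.W.TorsRep
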