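/-
GATE-R (S17) / node GR-W-KUMMER-UNR, binder-free closure (helper12).

`GR/W/KummerUnr.lean` proved the `hlc` field of `KummerAbs.TorsionModel` for `B := JZero N` from the
single binder `RedInertia N` (the inertia corollary of REDEQUIV).  That corollary is a theorem
(`GR/W/RedEquivInertia.lean`, helper75), so here:

* `redInertia N : KummerUnr.RedInertia N`;
* `kummer_hlc` : the `hlc` field, unconditionally;
* `torsionModel` : `KummerAbs.TorsionModel (levelS S) (n := p) (torsRep N p) (iota N p)`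
  (TORSREP of helper18 + `kummer_hlc`), unconditionally;
* `primeSet N p` : the canonical `S = {2, 3, p} ∪ {q ∣ N}` and its four membership facts;
* `weakMW_of_K2_redfin` : weak Mordell–Weil `[J₀(N)(ℚ) : p J₀(N)(ℚ)] < ∞` for an odd prime `p`
  from the two remaining node contracts K2 and REDFIN only (via `GR/W/Asm.weakMW_JZero`).
-/
import Fermat.Agent.GR.W.KummerUnr
import Fermat.Agent.GR.W.RedEquivInertia
import Fermat.Agent.GR.W.TorsRep
import Fermat.Agent.GR.W.Asm

set_option autoImplicit false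

noncomputable section

open ModularCurve AlgebraicCurve

namespace Fermat.Agent.GR.W.KummerUnrFinal

open Fermat.Agent.GC.Prof Fermat.Agent.GC.C0 Fermat.Agent.GR.W.TorsRep

local notation "Qb" => AlgebraicClosure ℚ
local notation "GQ" => (AlgebraicClosure ℚ ≃ₐ[ℚ] AlgebraicClosure ℚ)

variable (N : ℕ) [NeZero N]

/-- The binder of `GR/W/KummerUnr.lean` is a theorem. -/
theorem redInertia : Fermat.Agent.GR.W.KummerUnr.RedInertia N :=
  fun hq h5 hN 𝒜 h𝒜 σ hσ x =>
    Fermat.Agent.GR.W.RedEquivInertia.reductionModL_smul_of_mem_inertia hq h5 hN 𝒜 h𝒜 σ hσ x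

variable (S : Finset Nat.Primes) {p : ℕ} [Fact p.Prime]

/-- **GR-W-KUMMER-UNR, unconditional**: the Kummer cocycle of a `p`-division point of a rational
class of `J₀(N)` is level-constant for `levelS S` (`S ∋ 2, 3, p` and the primes dividing `N`). -/
theorem kummer_hlc
    (h2 : (⟨2, Nat.prime_two⟩ : Nat.Primes) ∈ S) (h3 : (⟨3, Nat.prime_three⟩ : Nat.Primes) ∈ S)
    (hpS : ExtCitation.pPrime p ∈ S) (hNS : ∀ q : Nat.Primes, (q : ℕ) ∣ N → q ∈ S) :
    ∀ y : JZero N, (∀ σ : GQ, σ • (p • y) = p • y) →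
      IsLC₁ (levelS S) (fun σ : GQ => σ • y - y) :=
  Fermat.Agent.GR.W.KummerUnr.kummer_hlc S (redInertia N) h2 h3 hpS hNS

/-- The stabiliser of EVERY `p`-division point of a rational class is a member of `levelS S`. -/
theorem stabilizer_mem_levelS
    (h2 : (⟨2, Nat.prime_two⟩ : Nat.Primes) ∈ S) (h3 : (⟨3, Nat.prime_three⟩ : Nat.Primes) ∈ S)
    (hpS : ExtCitation.pPrime p ∈ S) (hNS : ∀ q : Nat.Primes, (q : ℕ) ∣ N → q ∈ S)
    {y : JZero N} (hy : ∀ σ : GQ, σ • (p • y) = p • y) :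
    MulAction.stabilizer GQ y ∈ (levelS S).sets :=
  Fermat.Agent.GR.W.KummerUnr.stabilizer_mem_levelS S (redInertia N) Fact.out h2 h3 hpS hNS hy

/-- **`TorsionModel` for `J₀(N)[p]`, unconditional** (TORSREP + KUMMER-UNR). -/
theorem torsionModel
    (h2 : (⟨2, Nat.prime_two⟩ : Nat.Primes) ∈ S) (h3 : (⟨3, Nat.prime_three⟩ : Nat.Primes) ∈ S)
    (hpS : ExtCitation.pPrime p ∈ S) (hNS : ∀ q : Nat.Primes, (q : ℕ) ∣ N → q ∈ S) :
    Fermat.Agent.GR.W.KummerAbs.TorsionModel (levelS S) (n := p) (torsRep N p) (iota N p) :=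
  Fermat.Agent.GR.W.TorsRep.torsionModel N p S (kummer_hlc N S h2 h3 hpS hNS)

/-! ### the canonical set of primes `{2, 3, p} ∪ {q ∣ N}` -/

section PrimeSet

variable (p)

/-- `S = {2, 3, p} ∪ {q prime, q ∣ N}`. -/
def primeSet : Finset Nat.Primes :=
  insert (⟨2, Nat.prime_two⟩ : Nat.Primes) (insert (⟨3, Nat.prime_three⟩ : Nat.Primes)
    (insert (ExtCitation.pPrime p)
      (N.primeFactors.attach.image
        fun x => (⟨x.1, Nat.prime_of_mem_primeFactors x.2⟩ : Nat.Primes))))

omit [NeZero N] in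
theorem two_mem_primeSet : (⟨2, Nat.prime_two⟩ : Nat.Primes) ∈ primeSet N p := by
  unfold primeSet
  exact Finset.mem_insert_self _ _

omit [NeZero N] in
theorem three_mem_primeSet : (⟨3, Nat.prime_three⟩ : Nat.Primes) ∈ primeSet N p := by
  unfold primeSet
  exact Finset.mem_insert_of_mem (Finset.mem_insert_self _ _)

omit [NeZero N] in
theorem pPrime_mem_primeSet : ExtCitation.pPrime p ∈ primeSet N p := by
  unfold primeSet
  exact Finset.mem_insert_of_mem (Finset.mem_insert_of_mem (Finset.mem_insert_self _ _))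

theorem mem_primeSet_of_dvd (q : Nat.Primes) (hq : (q : ℕ) ∣ N) : q ∈ primeSet N p := by
  unfold primeSet
  refine Finset.mem_insert_of_mem (Finset.mem_insert_of_mem (Finset.mem_insert_of_mem ?_))
  exact Finset.mem_image.2
    ⟨⟨(q : ℕ), Nat.mem_primeFactors.2 ⟨q.2, hq, NeZero.ne N⟩⟩, Finset.mem_attach _ _, rfl⟩

end PrimeSet

/-! ### weak Mordell–Weil from K2 + REDFIN only -/

/-- **weak Mordell–Weil for `J₀(N)(ℚ)`, `p` an odd prime**, from the two remaining node contracts:
K2 (`hK2`) and REDFIN (`hfin`) for the reduction `reductionModL 𝒜 N` at one place `𝒜` of `ℚ̄`.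
The conclusion is `GR/Top/S17Top.WeakMW N p` (the binder `H₁` of `AddCommGroup.fg_of_descent`). -/
theorem weakMW_of_K2_redfin (hp2 : p ≠ 2) (𝒜 : ValuationSubring Qb)
    (hK2 : ∀ x : JZero N, reductionModL 𝒜 N x = 0 → (∀ σ : GQ, σ • x = x) →
      ∃ y : JZero N, p • y = x)
    (hfin : ((reductionModL 𝒜 N) '' (FixedPoints.addSubgroup GQ (JZero N) : Set (JZero N))).Finite) :
    (nsmulAddMonoidHom
      (α := ↥(FixedPoints.addSubgroup ((AlgebraicClosure ℚ) ≃ₐ[ℚ] (AlgebraicClosure ℚ)) (JZero N)))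
      p).range.FiniteIndex := by
  have hd : IsDiscrete (levelS (primeSet N p)) (torsRep N p) :=
    isDiscrete_torsRep N p (primeSet N p) (two_mem_primeSet N p) (three_mem_primeSet N p)
      (pPrime_mem_primeSet N p) (mem_primeSet_of_dvd N p)
  exact Fermat.Agent.GR.W.Asm.weakMW_JZero N hp2 (pPrime_mem_primeSet N p)
    (torsionModel N (primeSet N p) (two_mem_primeSet N p) (three_mem_primeSet N p)
      (pPrime_mem_primeSet N p) (mem_primeSet_of_dvd N p)) 𝒜 hK2 hfin

end Fermat.Agent.GR.W.KummerUnrFinal
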