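/-
GATE-R / S17, node GR-W-REDFIN, the `q = 0` place of a field of `q`-expansions (helper34).

`k` any field, `E : IntermediateField k (LaurentSeries k)` (e.g. the special-fibre field
`modularFunctionFieldFullC k N`).  The order of the `q`-expansion is a discrete valuation of `E`,
trivial on `k`; if some element of `E` has nonzero order it defines a place `qPlaceC k E hq`
(`S24.IntVal.placeOf`, as `GJ/Desc/QPlace.lean` does in characteristic zero).  It is fixed by every
semilinear automorphism of `E` preserving the order of `q`-expansions (`smul_qPlaceC`), e.g. by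
the coefficientwise Frobenius.
-/
import Fermat.Agent.S24.IntVal
import Fermat.Prelude.Def_AlgebraicCurve_BaseChangeGalois
import Fermat.Prelude.Def_ModularCurve_X0ModL

set_option autoImplicit false

noncomputable section

open HahnSeries IntermediateField AlgebraicCurve

namespace Fermat.Agent.GR.W.RedFinQPlace

open Fermat.Agent.S24

variable (k : Type*) [Field k] (E : IntermediateField k (LaurentSeries k))

theorem coe_ne_zero_of_ne_zero {g : E} (hg : g ≠ 0) : (g : LaurentSeries k) ≠ 0 :=
  fun h => hg (Subtype.ext h)

/-- the `q`-adic valuation data on a field of `q`-expansions -/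
def qValC : IntVal k E where
  toFun g := (g : LaurentSeries k).order
  map_mul' {f g} hf hg := by
    show ((f * g : E) : LaurentSeries k).order = _
    rw [MulMemClass.coe_mul]
    exact HahnSeries.order_mul (coe_ne_zero_of_ne_zero k E hf) (coe_ne_zero_of_ne_zero k E hg)
  map_add' {f g} hf hg hfg := by
    show _ ≤ ((f + g : E) : LaurentSeries k).order
    rw [AddMemClass.coe_add]
    exact HahnSeries.min_order_le_order_add (by
      rw [← AddMemClass.coe_add]
      exact coe_ne_zero_of_ne_zero k E hfg)
  map_algebraMap' c hc := by
    show ((algebraMap k E c : E) : LaurentSeries k).order = 0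
    have h : ((algebraMap k E c : E) : LaurentSeries k) = algebraMap k (LaurentSeries k) c := rfl
    rw [h, ModularCurve.algebraMap_laurentSeries_eq_single, HahnSeries.order_single hc]

theorem qValC_apply (g : E) : qValC k E g = (g : LaurentSeries k).order := rfl

theorem qValC_isNontrivial (hq : ∃ f ∈ E, f.order ≠ 0) : (qValC k E).IsNontrivial := by
  obtain ⟨f, hf, hord⟩ := hq
  refine ⟨⟨f, hf⟩, ?_, hord⟩
  intro h
  have h' : f = 0 := congrArg Subtype.val h
  rw [h', HahnSeries.order_zero] at hord
  exact hord rfl

/-- the place `q = 0` of a field of `q`-expansions containing an element of nonzero order -/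
def qPlaceC (hq : ∃ f ∈ E, f.order ≠ 0) : Place k E :=
  IntVal.placeOf (qValC_isNontrivial k E hq)

theorem mem_qPlaceC_iff (hq : ∃ f ∈ E, f.order ≠ 0) (g : E) :
    g ∈ (qPlaceC k E hq).toValuationSubring ↔ g = 0 ∨ 0 ≤ (g : LaurentSeries k).order :=
  Iff.rfl

/-- the `q`-place is fixed by every semilinear automorphism preserving the `q`-adic order -/
theorem smul_qPlaceC (hq : ∃ f ∈ E, f.order ≠ 0) (b : SemilinearAut k E)
    (hb : ∀ g : E, ((b • g : E) : LaurentSeries k).order = (g : LaurentSeries k).order) :
    b • qPlaceC k E hq = qPlaceC k E hq := by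
  apply Place.ext
  rw [SemilinearAut.smul_toValuationSubring]
  ext x
  rw [ValuationSubring.mem_pointwise_smul_iff_inv_smul_mem, mem_qPlaceC_iff, mem_qPlaceC_iff]
  have hord : ((b⁻¹ • x : E) : LaurentSeries k).order = (x : LaurentSeries k).order := by
    have := hb (b⁻¹ • x)
    rw [smul_inv_smul] at this
    exact this.symm
  rw [hord]
  constructor
  · rintro (h | h)
    · left
      have := congrArg (fun y => b • y) h
      simpa using this
    · exact Or.inr h
  · rintro (rfl | h)
    · left
      simp
    · exact Or.inr h

end Fermat.Agent.GR.W.RedFinQPlace
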