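/-
GATE-R / S17, node GR-W-REDFIN (helper34): **the image of `J₀(N)(ℚ)` under reduction mod `ℓ` is
finite.**

`A := FixedPoints.addSubgroup G_ℚ (JZero N)`, `𝒜` a valuation subring of `ℚ̄` over a prime `ℓ ∤ N`
(with `3 ∣ N` if `ℓ = 2`, `2 ∣ N` if `ℓ = 3`: the hypotheses of `GJ/S37` `levelPackage`; void for
`ℓ ≥ 5`), `k` its residue field.  Then

* `finite_frobAut_fixed` : the classes of `JZeroC k N` fixed by the arithmetic Frobenius
  `GJ/S37/FrobSpecial.frobAut` (coefficientwise `x ↦ x ^ ℓ` on `q`-expansions) are finitely many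
  [= finiteness of the class group of the function field of `X₀(N)` over `𝔽_ℓ`];
* `finite_image_fixedPoints` : `(reductionModL 𝒜 N '' A).Finite` — verbatim the binder `hfin` of
  helper79's `GR/W/Asm.weakMW_JZero`;
* `relIndex_ker_ne_zero` : `[A : A ∩ ker red] < ∞`.

Inputs: the abstract theorem `GR/W/RedFinAbs.finite_fixed_pic0`, the `q = 0` place
`GR/W/RedFinQPlace`, and from main `GJ/S37`: `levelPackage` (reduction inputs + uniqueness),
`reductionModL_smul_of_frobenius_of_uniq` (a Frobenius lift acts through `frobAut` after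
reduction); existence of Frobenius lifts `S54_helper34.exists_isFrobeniusAt`.
-/
import Fermat.Agent.GR.W.RedFinAbs
import Fermat.Agent.GR.W.RedFinQPlace
import Fermat.Agent.GJ.S37.LSpaceGateProof
import Fermat.Agent.GJ.S37.UniqRed2
import Fermat.Agent.GJ.S37.FrobSpecial
import Fermat.Agent.GJ.FF.Instances
import Fermat.Agent.GJ.J1.ResidueAlgClosed
import Fermat.Agent.GJ.Desc.QPlace
import Fermat.Agent.S54_helper34.FrobeniusExists

set_option autoImplicit false

noncomputable section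

open HahnSeries IntermediateField AlgebraicCurve ModularCurve IsLocalRing

namespace Fermat.Agent.GR.W.RedFin

open Fermat.Agent.RRh45 Fermat.Agent.GR.W.RedFinAbs Fermat.Agent.GR.W.RedFinQPlace
  Fermat.Agent.GJ.S37.Frob

/-! ### the Frobenius of a perfect field of characteristic `ℓ` -/

section FrobFix

variable (k : Type*) [Field k] (ℓ : ℕ) [Fact ℓ.Prime] [CharP k ℓ] [PerfectRing k ℓ]

theorem frobeniusEquiv_pow_apply (m : ℕ) (a : k) :
    (frobeniusEquiv k ℓ ^ m) a = a ^ ℓ ^ m := by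
  induction m generalizing a with
  | zero => simp
  | succ m ih =>
    rw [pow_succ, RingAut.mul_apply, ih, frobeniusEquiv_apply, frobenius_def, ← pow_mul, pow_succ']

theorem finite_fixed_frobeniusEquiv_pow (m : ℕ) (hm : 0 < m) :
    {a : k | (frobeniusEquiv k ℓ ^ m) a = a}.Finite := by
  have h1 : 1 < ℓ ^ m := Nat.one_lt_pow hm.ne' (Fact.out : ℓ.Prime).one_lt
  have hne : (Polynomial.X ^ ℓ ^ m - Polynomial.X : Polynomial k) ≠ 0 :=
    FiniteField.X_pow_card_sub_X_ne_zero k h1
  refine ((Polynomial.X ^ ℓ ^ m - Polynomial.X : Polynomial k).rootSet_finite k).subset ?_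
  intro a ha
  have ha' : (frobeniusEquiv k ℓ ^ m) a = a := ha
  rw [frobeniusEquiv_pow_apply] at ha'
  rw [Polynomial.mem_rootSet]
  refine ⟨hne, ?_⟩
  simp [ha']

end FrobFix

/-! ### the special fibre -/

section SpecialFibreJ

variable (k : Type*) [Field k] (N : ℕ)

theorem order_jqModC_eq : (jqModC k).order = -1 := by
  have h1 : (jqModC k).coeff (-1) ≠ 0 := by
    rw [coeff_jqModC_neg_one]; exact one_ne_zero
  have hne : jqModC k ≠ 0 := fun h => h1 (by rw [h]; rfl)
  apply le_antisymm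
  · exact HahnSeries.order_le_of_coeff_ne_zero h1
  · by_contra hlt
    rw [not_le] at hlt
    exact hne (HahnSeries.coeff_order_eq_zero.mp (coeff_jqModC_of_lt k hlt))

theorem exists_order_ne_zero : ∃ f ∈ modularFunctionFieldFullC k N, f.order ≠ 0 :=
  ⟨jqModC k, jqModC_mem_full k N, by rw [order_jqModC_eq]; decide⟩

/-- the function `j` on the special fibre -/
def jElt : modularFunctionFieldFullC k N := ⟨jqModC k, jqModC_mem_full k N⟩

theorem jElt_ne_algebraMap (a : k) :
    jElt k N ≠ algebraMap k (modularFunctionFieldFullC k N) a := by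
  intro h
  have h1 : jqModC k = algebraMap k (LaurentSeries k) a := congrArg Subtype.val h
  have h2 := order_jqModC_eq k
  rw [h1, algebraMap_laurentSeries_eq_single] at h2
  by_cases ha : a = 0
  · rw [ha, HahnSeries.single_eq_zero, HahnSeries.order_zero] at h2
    exact absurd h2 (by decide)
  · rw [HahnSeries.order_single ha] at h2
    exact absurd h2 (by decide)

end SpecialFibreJ

section SpecialFibre

variable (k : Type*) [Field k] (ℓ : ℕ) [Fact ℓ.Prime] [CharP k ℓ] [PerfectRing k ℓ]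
variable (N : ℕ)

theorem frobAut_smul_jElt : frobAut k ℓ N • jElt k N = jElt k N := by
  apply Subtype.ext
  rw [coe_frobAut_smul]
  exact coeffMap_jqModC _

theorem order_frobAut_smul (g : modularFunctionFieldFullC k N) :
    ((frobAut k ℓ N • g : modularFunctionFieldFullC k N) : LaurentSeries k).order =
      (g : LaurentSeries k).order := by
  rw [coe_frobAut_smul]
  exact Fermat.Agent.GJ.Desc.QP.order_coeffMap (frobenius_inj k ℓ) _

/-- **the Frobenius-fixed classes of the special fibre are finitely many** -/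
theorem finite_frobAut_fixed [IsAlgClosed k]
    [FiniteResidues k (modularFunctionFieldFullC k N)]
    [HasPrincipalDivisors k (modularFunctionFieldFullC k N)] :
    {x : JZeroC k N | frobAut k ℓ N • x = x}.Finite := by
  refine finite_fixed_pic0 (frobAut k ℓ N)
    (qPlaceC k (modularFunctionFieldFullC k N) (exists_order_ne_zero k N))
    (smul_qPlaceC k _ _ _ (order_frobAut_smul k ℓ N))
    (fun Q => by
      have : Module.Finite k Q.ResidueField := FiniteResidues.finite Q
      exact Q.deg_eq_one_of_isAlgClosed_of_finite) (jElt k N) (jElt_ne_algebraMap k N)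
    (frobAut_smul_jElt k ℓ N) fun m hm => ?_
  rw [baseAut_frobAut]
  exact finite_fixed_frobeniusEquiv_pow k ℓ m hm

end SpecialFibre

/-! ### the frozen setting -/

section Frozen

set_option synthInstance.maxHeartbeats 400000

variable (N : ℕ) [NeZero N]

/-- **REDFIN**: the image of the rational points `J₀(N)(ℚ)` under `reductionModL 𝒜 N` is finite. -/
theorem finite_image_fixedPoints {ℓ : ℕ} (hℓ : ℓ.Prime) (hℓN : ¬ ℓ ∣ N) (h2 : ℓ = 2 → 3 ∣ N)
    (h3 : ℓ = 3 → 2 ∣ N) (𝒜 : ValuationSubring (AlgebraicClosure ℚ)) (h𝒜 : 𝒜.LiesOverPrime ℓ) :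
    ((reductionModL 𝒜 N) '' (FixedPoints.addSubgroup
      ((AlgebraicClosure ℚ) ≃ₐ[ℚ] (AlgebraicClosure ℚ)) (JZero N) : Set (JZero N))).Finite := by
  obtain ⟨h, huniq⟩ := Fermat.Agent.GJ.S37LSpaceGate.levelPackage N hℓ hℓN h2 h3 𝒜 h𝒜
  have : Fact ℓ.Prime := ⟨hℓ⟩
  have : CharP (ResidueField 𝒜) ℓ := Fermat.Agent.GJ.Kum.charP_residueField 𝒜 hℓ h𝒜
  have : IsAlgClosed (ResidueField 𝒜) :=
    Fermat.Agent.GJ.ResidueAlgClosed.instIsAlgClosedResidueField 𝒜
  have : FiniteResidues (ResidueField 𝒜) (modularFunctionFieldFullC (ResidueField 𝒜) N) :=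
    Fermat.Agent.GJ.FF.Fibre.finiteResidues_fibre (k := ResidueField 𝒜) N 𝒜 (residue 𝒜)
  have : HasPrincipalDivisors (ResidueField 𝒜) (modularFunctionFieldFullC (ResidueField 𝒜) N) :=
    Fermat.Agent.GJ.FF.Fibre.hasPrincipalDivisors_fibre' (k := ResidueField 𝒜) N 𝒜 (residue 𝒜)
  obtain ⟨σ, hσ⟩ := Fermat.Agent.S54_helper34.exists_isFrobeniusAt 𝒜 ℓ hℓ h𝒜
  refine (finite_frobAut_fixed (ResidueField 𝒜) ℓ N).subset ?_
  rintro _ ⟨x, hx, rfl⟩
  have hx' : σ • x = x := hx σ
  show frobAut (ResidueField 𝒜) ℓ N • reductionModL 𝒜 N x = reductionModL 𝒜 N x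
  rw [← Fermat.Agent.GJ.S37Uniq2.reductionModL_smul_of_frobenius_of_uniq h huniq
    (frobAut (ResidueField 𝒜) ℓ N) (fun f => coe_frobAut_smul (ResidueField 𝒜) ℓ N f) hσ x, hx']

/-- **REDFIN, index form**: `A ∩ ker red` has finite index in `A = J₀(N)(ℚ)`. -/
theorem relIndex_ker_ne_zero {ℓ : ℕ} (hℓ : ℓ.Prime) (hℓN : ¬ ℓ ∣ N) (h2 : ℓ = 2 → 3 ∣ N)
    (h3 : ℓ = 3 → 2 ∣ N) (𝒜 : ValuationSubring (AlgebraicClosure ℚ)) (h𝒜 : 𝒜.LiesOverPrime ℓ) :
    ((reductionModL 𝒜 N).ker ⊓ FixedPoints.addSubgroup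
      ((AlgebraicClosure ℚ) ≃ₐ[ℚ] (AlgebraicClosure ℚ)) (JZero N)).relIndex
      (FixedPoints.addSubgroup ((AlgebraicClosure ℚ) ≃ₐ[ℚ] (AlgebraicClosure ℚ)) (JZero N)) ≠ 0 := by
  classical
  have hfin := finite_image_fixedPoints N hℓ hℓN h2 h3 𝒜 h𝒜
  set red := reductionModL 𝒜 N with hred
  set A := FixedPoints.addSubgroup ((AlgebraicClosure ℚ) ≃ₐ[ℚ] (AlgebraicClosure ℚ)) (JZero N)
    with hA
  rw [AddSubgroup.inf_relIndex_right]
  set H := red.ker.addSubgroupOf A with hH
  have hF : Finite (red '' (A : Set (JZero N))) := hfin.to_subtype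
  let f : A ⧸ H → (red '' (A : Set (JZero N))) := fun q => ⟨red (q.out : JZero N), ⟨_, q.out.2, rfl⟩⟩
  have hf : Function.Injective f := by
    intro q q' hqq'
    have h1 : red (q.out : JZero N) = red (q'.out : JZero N) := congrArg Subtype.val hqq'
    have h2' : (QuotientAddGroup.mk q.out : A ⧸ H) = QuotientAddGroup.mk q'.out := by
      rw [QuotientAddGroup.eq]
      show ((-q.out + q'.out : A) : JZero N) ∈ red.ker
      rw [AddMonoidHom.mem_ker, AddSubgroup.coe_add, AddSubgroup.coe_neg, map_add, map_neg, h1,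
        neg_add_cancel]
    rw [QuotientAddGroup.out_eq', QuotientAddGroup.out_eq'] at h2'
    exact h2'
  have hfinQ : Finite (A ⧸ H) := Finite.of_injective f hf
  exact AddSubgroup.index_ne_zero_of_finite

end Frozen

end Fermat.Agent.GR.W.RedFin
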