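/-
GATE-R (S17) / node W CLOSED (helper19): WEAK MORDELL–WEIL for `J₀(N)(ℚ)` at every odd prime `p`.

`weakMW_odd N hp2 : GR/Top/S17Top.WeakMW N p` — binder-free.  Inside: an auxiliary prime
`ℓ ≥ 5`, `ℓ ∤ N`, `ℓ ≠ p`, a place `𝒜` of `ℚ̄` over `ℓ`, then
`KummerUnrFinal.weakMW_of_K2_redfin` (helper12; KUMMER-ABS helper79, TORSREP helper18,
REDEQUIV helper75/helper48 inside) with K2 := `K2.PairTop.hK2` (route UPFV) and
REDFIN := `RedFin.finite_image_fixedPoints` (helper34).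
-/
import Fermat.Agent.GR.W.KummerUnrFinal
import Fermat.Agent.GR.W.RedFin
import Fermat.Agent.GR.W.K2.PairTop
import Fermat.Agent.GR.Top.S17Top
import Fermat.Agent.Common_helper32.FrobeniusExists

set_option autoImplicit false
set_option synthInstance.maxHeartbeats 400000
set_option maxHeartbeats 1000000

noncomputable section

open AlgebraicCurve ModularCurve

namespace Fermat.Agent.GR.W.Final

open Fermat.Agent.GR.Top.S17Top

/-- **weak Mordell–Weil** for `J₀(N)(ℚ)` at an odd prime `p`: `p · J₀(N)(ℚ)` has finite index. -/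
theorem weakMW_odd (N : ℕ) [NeZero N] {p : ℕ} [Fact p.Prime] (hp2 : p ≠ 2) : WeakMW N p := by
  have hp : p.Prime := Fact.out
  have hN : 0 < N := Nat.pos_of_ne_zero (NeZero.ne N)
  obtain ⟨ℓ, hℓge, hℓ⟩ := Nat.exists_infinite_primes (max 5 (N * p) + 1)
  have h5 : 5 ≤ ℓ := by
    have := le_max_left 5 (N * p); omega
  have hNp : N * p < ℓ := by
    have := le_max_right 5 (N * p); omega
  have hNℓ : N < ℓ := lt_of_le_of_lt (Nat.le_mul_of_pos_right N hp.pos) hNp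
  have hpℓ' : p < ℓ := lt_of_le_of_lt (Nat.le_mul_of_pos_left p hN) hNp
  have hℓN : ¬ ℓ ∣ N := fun h => absurd (Nat.le_of_dvd hN h) (not_le.mpr hNℓ)
  have hpℓ : p ≠ ℓ := hpℓ'.ne
  obtain ⟨𝒜, h𝒜⟩ := Fermat.Agent.Common_helper32.exists_liesOverPrime ℓ hℓ
  haveI : Fact ℓ.Prime := ⟨hℓ⟩
  exact Fermat.Agent.GR.W.KummerUnrFinal.weakMW_of_K2_redfin N hp2 𝒜
    (Fermat.Agent.GR.W.K2.PairTop.hK2 h5 hℓN h𝒜 hp hpℓ)
    (Fermat.Agent.GR.W.RedFin.finite_image_fixedPoints N hℓ hℓN (fun h => by omega)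
      (fun h => by omega) 𝒜 h𝒜)

/-- the instance used by GATE-R: `p = 3`. -/
theorem weakMW_three (N : ℕ) [NeZero N] : WeakMW N 3 :=
  haveI : Fact (Nat.Prime 3) := ⟨Nat.prime_three⟩
  weakMW_odd N (by norm_num)

end Fermat.Agent.GR.W.Final
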