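/-
GATE-R (S17) / node GR-W-ASM, second layer (helper79): **weak Mordell–Weil for `J₀(N)(ℚ)` from
K2 + REDFIN alone**.

The nodes TORSREP (helper18, `GR/W/TorsRep.lean`), KUMMER-UNR (helper12, `GR/W/KummerUnr.lean`)
and REDEQUIV-INERTIA (helper75, `GR/W/RedEquivInertia.lean`) are plugged into
`GR/W/Asm.weakMW_JZero`: the `TorsionModel` for `M := torsRep N p`, `ι := iota N p` is now a
theorem for every finite set `S` of primes containing `2, 3, p` and the primes dividing `N`, and
such a set is built here (`descentSet N p`).  What remains of node W are the two binders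

* K2     : `hK2`  — rational classes killed by `reductionModL 𝒜 N` are `p`-divisible in `JZero N`,
* REDFIN : `hfin` — `reductionModL 𝒜 N '' J₀(N)(ℚ)` is finite,

for ONE valuation subring `𝒜` of `ℚ̄` (any).

* `redInertia N` : helper12's binder `KummerUnr.RedInertia N` as a theorem (from helper75).
* `descentSet N p` with its four membership lemmas.
* `torsionModel_descent` : the unconditional `TorsionModel (levelS S) (torsRep N p) (iota N p)`.
* `weakMW_of_K2_redfin` : `WeakMW N p`-shape from `hK2` + `hfin`.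
-/
import Fermat.Agent.GR.W.Asm
import Fermat.Agent.GR.W.TorsRep
import Fermat.Agent.GR.W.KummerUnr
import Fermat.Agent.GR.W.RedEquivInertia

set_option autoImplicit false

namespace Fermat.Agent.GR.W.AsmKummer

open Fermat.Agent.GC.Prof Fermat.Agent.GC.C0 Fermat.Agent.GR.W.KummerAbs
  ExtCitation ModularCurve AlgebraicCurve

local notation "Qb" => AlgebraicClosure ℚ
local notation "GQ" => (AlgebraicClosure ℚ ≃ₐ[ℚ] AlgebraicClosure ℚ)

noncomputable section

variable (N : ℕ) [NeZero N]

/-- helper12's binder `RedInertia N` (reduction at `𝒜 ∣ q`, `q ≥ 5`, `q ∤ N`, does not see the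
inertia group of `𝒜`) is a theorem: helper75's `reductionModL_smul_of_mem_inertia`. -/
theorem redInertia : Fermat.Agent.GR.W.KummerUnr.RedInertia N :=
  fun hq h5 hN 𝒜 h𝒜 σ hσ x =>
    Fermat.Agent.GR.W.RedEquivInertia.reductionModL_smul_of_mem_inertia hq h5 hN 𝒜 h𝒜 σ hσ x

variable (p : ℕ) [Fact p.Prime]

/-- The finite set of primes `{2, 3, p} ∪ {q : q ∣ N}` outside of which the descent is
unramified. -/
def descentSet : Finset Nat.Primes :=
  insert (⟨2, Nat.prime_two⟩ : Nat.Primes) (insert (⟨3, Nat.prime_three⟩ : Nat.Primes)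
    (insert (pPrime p)
      ((N.primeFactors).attach.image fun q => (⟨q.1, Nat.prime_of_mem_primeFactors q.2⟩ :
        Nat.Primes))))

omit [NeZero N] in
theorem two_mem_descentSet : (⟨2, Nat.prime_two⟩ : Nat.Primes) ∈ descentSet N p :=
  Finset.mem_insert_self _ _

omit [NeZero N] in
theorem three_mem_descentSet : (⟨3, Nat.prime_three⟩ : Nat.Primes) ∈ descentSet N p :=
  Finset.mem_insert_of_mem (Finset.mem_insert_self _ _)

omit [NeZero N] in
theorem pPrime_mem_descentSet : pPrime p ∈ descentSet N p :=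
  Finset.mem_insert_of_mem (Finset.mem_insert_of_mem (Finset.mem_insert_self _ _))

theorem mem_descentSet_of_dvd (q : Nat.Primes) (hq : (q : ℕ) ∣ N) : q ∈ descentSet N p := by
  refine Finset.mem_insert_of_mem (Finset.mem_insert_of_mem (Finset.mem_insert_of_mem ?_))
  have hmem : (q : ℕ) ∈ N.primeFactors :=
    Nat.mem_primeFactors.2 ⟨q.2, hq, NeZero.ne N⟩
  exact Finset.mem_image.2 ⟨⟨(q : ℕ), hmem⟩, Finset.mem_attach _ _, Subtype.ext rfl⟩

/-- `torsRep N p` is discrete for `levelS (descentSet N p)`. -/
theorem isDiscrete_torsRep_descent :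
    IsDiscrete (levelS (descentSet N p)) (Fermat.Agent.GR.W.TorsRep.torsRep N p) :=
  Fermat.Agent.GR.W.TorsRep.isDiscrete_torsRep N p (descentSet N p)
    (two_mem_descentSet N p) (three_mem_descentSet N p) (pPrime_mem_descentSet N p)
    (mem_descentSet_of_dvd N p)

/-- **TORSREP + KUMMER-UNR + REDEQUIV-INERTIA**: the `TorsionModel` of `J₀(N)[p]` for the level
structure `levelS (descentSet N p)`, with no hypothesis left. -/
theorem torsionModel_descent :
    TorsionModel (levelS (descentSet N p)) (n := p)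
      (Fermat.Agent.GR.W.TorsRep.torsRep N p) (Fermat.Agent.GR.W.TorsRep.iota N p) :=
  Fermat.Agent.GR.W.TorsRep.torsionModel N p (descentSet N p)
    (Fermat.Agent.GR.W.KummerUnr.kummer_hlc (descentSet N p) (redInertia N)
      (two_mem_descentSet N p) (three_mem_descentSet N p) (pPrime_mem_descentSet N p)
      (mem_descentSet_of_dvd N p))

variable {p}

/-- **weak Mordell–Weil for `J₀(N)(ℚ)` from K2 + REDFIN**: for an odd prime `p` and ONE valuation
subring `𝒜` of `ℚ̄` such that rational classes killed by `reductionModL 𝒜 N` are `p`-divisible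
(`hK2`) and `reductionModL 𝒜 N` has finite image on rational classes (`hfin`), the subgroup
`p • J₀(N)(ℚ)` has finite index in `J₀(N)(ℚ)`. -/
theorem weakMW_of_K2_redfin (hp2 : p ≠ 2) (𝒜 : ValuationSubring Qb)
    (hK2 : ∀ x : JZero N, reductionModL 𝒜 N x = 0 → (∀ σ : GQ, σ • x = x) →
      ∃ y : JZero N, p • y = x)
    (hfin : ((reductionModL 𝒜 N) '' (FixedPoints.addSubgroup GQ (JZero N) : Set (JZero N))).Finite) :
    (nsmulAddMonoidHom
      (α := ↥(FixedPoints.addSubgroup ((AlgebraicClosure ℚ) ≃ₐ[ℚ] (AlgebraicClosure ℚ)) (JZero N)))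
      p).range.FiniteIndex := by
  have := isDiscrete_torsRep_descent N p
  exact Fermat.Agent.GR.W.Asm.weakMW_JZero N hp2 (pPrime_mem_descentSet N p)
    (torsionModel_descent N p) 𝒜 hK2 hfin

end

end Fermat.Agent.GR.W.AsmKummer
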