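/-
GATE-R W4 / K2-UPFV adapter (helper22): multi-variable Hensel in the "square + injective modulo
the maximal ideal" form, with DIFFERENT index types for equations and unknowns and NO determinant
in the statement.  On top of `GR/W/MvHensel.lean`.  Mathlib only.
-/
import Fermat.Agent.GR.W.MvHensel

set_option autoImplicit false

namespace Fermat.Agent.GR.MvHensel

open IsLocalRing MvPolynomial

section DetUnit

variable {R : Type*} [CommRing R] [IsLocalRing R] {ι : Type*} [Fintype ι] [DecidableEq ι]

/-- A square matrix over a local ring whose reduction is injective (in the lifted form: a vector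
sent into `𝔪` has all entries in `𝔪`) has unit determinant. -/
theorem isUnit_det_of_injective_mod (J : Matrix ι ι R)
    (hinj : ∀ d : ι → R, (∀ i, (J.mulVec d) i ∈ maximalIdeal R) → ∀ j, d j ∈ maximalIdeal R) :
    IsUnit J.det := by
  classical
  let k := ResidueField R
  let Jb : Matrix ι ι k := J.map (residue R)
  have hker : ∀ v : ι → k, Jb.mulVec v = 0 → v = 0 := by
    intro v hv
    choose d hd using fun j => residue_surjective (R := R) (v j)
    have hmul : ∀ i, residue R ((J.mulVec d) i) = (Jb.mulVec v) i := by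
      intro i
      simp only [Matrix.mulVec, dotProduct, map_sum, map_mul, Jb, Matrix.map_apply, hd]
    have h1 : ∀ i, (J.mulVec d) i ∈ maximalIdeal R := by
      intro i
      rw [← residue_eq_zero_iff, hmul, hv]
      rfl
    funext j
    have := hinj d h1 j
    rw [← residue_eq_zero_iff, hd] at this
    exact this
  have hinjb : Function.Injective Jb.mulVec := by
    intro v w hvw
    have : Jb.mulVec (v - w) = 0 := by rw [Matrix.mulVec_sub, hvw, sub_self]
    exact sub_eq_zero.mp (hker _ this)
  have hdetb : IsUnit Jb.det := by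
    rw [← Matrix.isUnit_iff_isUnit_det]
    exact Matrix.mulVec_injective_iff_isUnit.mp hinjb
  have hres : residue R J.det = Jb.det := by
    rw [RingHom.map_det]
    rfl
  by_contra hnu
  have hm : J.det ∈ maximalIdeal R := (mem_maximalIdeal _).mpr hnu
  rw [← residue_eq_zero_iff, hres] at hm
  exact hdetb.ne_zero hm

end DetUnit

section Square

variable {K : Type*} [Field K] [IsAlgClosed K] (A : ValuationSubring K)
variable {ι κ : Type*} [Fintype ι] [DecidableEq ι] [Fintype κ]

/-- **Multi-variable Hensel, "square + injective mod `𝔪`" form.**  Equations indexed by `κ`,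
unknowns by `ι`, same cardinality.  If `x₀` is a root modulo `𝔪_A` and the linearised system at
`x₀` is injective modulo `𝔪_A`, there is a unique exact root congruent to `x₀`. -/
theorem existsUnique_root_of_card_eq (hcard : Fintype.card κ = Fintype.card ι)
    (F : κ → MvPolynomial ι A) (x₀ : ι → A)
    (h₀ : ∀ m, eval x₀ (F m) ∈ maximalIdeal A)
    (hinj : ∀ d : ι → A, (∀ m, ∑ j, eval x₀ (pderiv j (F m)) * d j ∈ maximalIdeal A) →
      ∀ j, d j ∈ maximalIdeal A) :
    ∃! x : ι → A, (∀ m, eval x (F m) = 0) ∧ ∀ j, x j - x₀ j ∈ maximalIdeal A := by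
  classical
  let e : ι ≃ κ := (Fintype.equivOfCardEq hcard).symm
  let F' : ι → MvPolynomial ι A := fun i => F (e i)
  have h₀' : ∀ i, eval x₀ (F' i) ∈ maximalIdeal A := fun i => h₀ (e i)
  have hJ : IsUnit (Matrix.det (Matrix.of fun i j => eval x₀ (pderiv j (F' i)))) := by
    apply isUnit_det_of_injective_mod
    intro d hd
    apply hinj d
    intro m
    have := hd (e.symm m)
    simpa [Matrix.mulVec, dotProduct, F'] using this
  obtain ⟨x, ⟨hx, hxc⟩, huniq⟩ := existsUnique_root A F' x₀ h₀' hJ
  refine ⟨x, ⟨fun m => ?_, hxc⟩, fun y ⟨hy, hyc⟩ => huniq y ⟨fun i => hy (e i), hyc⟩⟩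
  have := hx (e.symm m)
  simpa [F'] using this

/-- Existence part of `existsUnique_root_of_card_eq`. -/
theorem exists_root_of_card_eq (hcard : Fintype.card κ = Fintype.card ι)
    (F : κ → MvPolynomial ι A) (x₀ : ι → A)
    (h₀ : ∀ m, eval x₀ (F m) ∈ maximalIdeal A)
    (hinj : ∀ d : ι → A, (∀ m, ∑ j, eval x₀ (pderiv j (F m)) * d j ∈ maximalIdeal A) →
      ∀ j, d j ∈ maximalIdeal A) :
    ∃ x : ι → A, (∀ m, eval x (F m) = 0) ∧ ∀ j, x j - x₀ j ∈ maximalIdeal A :=
  (existsUnique_root_of_card_eq A hcard F x₀ h₀ hinj).exists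

end Square

end Fermat.Agent.GR.MvHensel
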