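/-
GATE-R (S17) / node GR-W-REDFIN-QPLACE (helper19, second seat of helper34's REDFIN):
**the `q`-adic place of an arbitrary subfield `F ⊆ K((q))`**, generic version of helper80's
`GJ/Desc/QPlace.lean` (which is for `laurentBaseChange L F₀`, characteristic zero).

* `qValGen K F` : the `IntVal` "order of the Laurent series" on `F`;
* `qPlaceGen K F hq` : the place `q = 0` of `F`, as soon as some element of `F` has nonzero order;
* `mem_qPlaceGen_iff`, `order_eq_mult_mul_ord`;
* `smul_qPlaceGen` : a semilinear automorphism of `F` acting coefficientwise through an injective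
  ring endomorphism of `K` fixes the `q`-place;
* instance `F̃ = modularFunctionFieldFullC k N` (the special fibre of `X₀(N)`): `qPlaceC k N`,
  `coeffSemilinear_smul_qPlaceC`, **`frobAut_smul_qPlaceC`** (the binder `O`, `b • O = O` of helper34's
  `finite_fixed_pic0`), `ord_jqModC_qPlaceC_neg`.
-/
import Fermat.Agent.GJ.Desc.QPlace
import Fermat.Agent.GJ.S37.FrobSpecial
import Fermat.Agent.S28.UnitOrders

set_option autoImplicit false

noncomputable section

open HahnSeries IntermediateField AlgebraicCurve ModularCurve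

namespace Fermat.Agent.GR.W.QPlaceGen

open Fermat.Agent.S24 Fermat.Agent.GJ.Desc Fermat.Agent.GJ.Desc.QP

section Generic

variable (K : Type*) [Field K] (F : IntermediateField K (LaurentSeries K))

theorem coe_ne_zero_of_ne_zero {g : ↥F} (hg : g ≠ 0) : (g : LaurentSeries K) ≠ 0 :=
  fun h => hg (Subtype.ext h)

/-- the `q`-adic valuation data on `F ⊆ K((q))` -/
def qValGen : IntVal K ↥F where
  toFun g := (g : LaurentSeries K).order
  map_mul' {f g} hf hg := by
    show ((f * g : ↥F) : LaurentSeries K).order = _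
    rw [MulMemClass.coe_mul]
    exact HahnSeries.order_mul (coe_ne_zero_of_ne_zero K F hf) (coe_ne_zero_of_ne_zero K F hg)
  map_add' {f g} hf hg hfg := by
    show _ ≤ ((f + g : ↥F) : LaurentSeries K).order
    rw [AddMemClass.coe_add]
    exact HahnSeries.min_order_le_order_add (by
      rw [← AddMemClass.coe_add]
      exact coe_ne_zero_of_ne_zero K F hfg)
  map_algebraMap' c hc := by
    show ((algebraMap K ↥F c : ↥F) : LaurentSeries K).order = 0
    have h : ((algebraMap K ↥F c : ↥F) : LaurentSeries K) = algebraMap K (LaurentSeries K) c := rfl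
    rw [h, algebraMap_laurentSeries_eq_single, HahnSeries.order_single hc]

theorem qValGen_apply (g : ↥F) : qValGen K F g = (g : LaurentSeries K).order := rfl

theorem qValGen_isNontrivial (hq : ∃ f ∈ F, f.order ≠ 0) : (qValGen K F).IsNontrivial := by
  obtain ⟨f, hf, hord⟩ := hq
  refine ⟨⟨f, hf⟩, ?_, hord⟩
  intro h
  have h' : f = 0 := congrArg Subtype.val h
  rw [h'] at hord
  exact hord HahnSeries.order_zero

/-- **the place `q = 0` of `F ⊆ K((q))`**, when some element of `F` has nonzero order -/
def qPlaceGen (hq : ∃ f ∈ F, f.order ≠ 0) : Place K ↥F :=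
  IntVal.placeOf (qValGen_isNontrivial K F hq)

theorem qPlaceGen_toValuationSubring (hq : ∃ f ∈ F, f.order ≠ 0) :
    (qPlaceGen K F hq).toValuationSubring = (qValGen K F).valuationSubring := rfl

theorem mem_qPlaceGen_iff (hq : ∃ f ∈ F, f.order ≠ 0) (g : ↥F) :
    g ∈ (qPlaceGen K F hq).toValuationSubring ↔ g = 0 ∨ 0 ≤ (g : LaurentSeries K).order :=
  Iff.rfl

/-- `order = mult * ord` at the `q`-place -/
theorem order_eq_mult_mul_ord (hq : ∃ f ∈ F, f.order ≠ 0) {g : ↥F} (hg : g ≠ 0) :
    (g : LaurentSeries K).order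
      = IntVal.mult (qValGen_isNontrivial K F hq) * (qPlaceGen K F hq).ord g :=
  IntVal.eq_mult_mul_ord (qValGen_isNontrivial K F hq) hg

/-- the sign of `ord` at the `q`-place is the sign of the order of the Laurent series -/
theorem ord_neg_of_order_neg (hq : ∃ f ∈ F, f.order ≠ 0) {g : ↥F}
    (hg : (g : LaurentSeries K).order < 0) : (qPlaceGen K F hq).ord g < 0 := by
  have hg0 : g ≠ 0 := by
    rintro rfl
    simp at hg
  have h := order_eq_mult_mul_ord K F hq hg0
  have hm := IntVal.mult_pos (qValGen_isNontrivial K F hq)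
  by_contra hcon
  rw [not_lt] at hcon
  have : 0 ≤ IntVal.mult (qValGen_isNontrivial K F hq) * (qPlaceGen K F hq).ord g :=
    mul_nonneg hm.le hcon
  linarith

/-- **a coefficientwise semilinear automorphism fixes the `q`-place** -/
theorem smul_qPlaceGen (hq : ∃ f ∈ F, f.order ≠ 0) (g : SemilinearAut K ↥F) (φ : K →+* K)
    (hφ : Function.Injective φ)
    (hg : ∀ x : ↥F, ((g • x : ↥F) : LaurentSeries K) = coeffMap φ (x : LaurentSeries K)) :
    g • qPlaceGen K F hq = qPlaceGen K F hq := by
  have hord : ∀ x : ↥F, ((g • x : ↥F) : LaurentSeries K).order = (x : LaurentSeries K).order :=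
    fun x => by rw [hg x, order_coeffMap hφ]
  have hord' : ∀ x : ↥F, ((g⁻¹ • x : ↥F) : LaurentSeries K).order = (x : LaurentSeries K).order := by
    intro x
    have h := hord (g⁻¹ • x)
    rw [smul_inv_smul] at h
    exact h.symm
  apply Place.ext
  rw [SemilinearAut.smul_toValuationSubring]
  ext x
  rw [ValuationSubring.mem_pointwise_smul_iff_inv_smul_mem, mem_qPlaceGen_iff, mem_qPlaceGen_iff,
    hord']
  constructor
  · rintro (h | h)
    · left
      have := congrArg (fun y => g • y) h
      simpa using this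
    · exact Or.inr h
  · rintro (rfl | h)
    · left
      simp
    · exact Or.inr h

end Generic

/-! ### The special fibre `F̃ = modularFunctionFieldFullC k N` -/

section SpecialFibre

open Fermat.Agent.GJ.S37.Frob

variable (k : Type*) [Field k] (N : ℕ)

/-- `j(q)` has order `-1`: the `q`-valuation is nontrivial on the special fibre -/
theorem exists_order_ne_zero_C : ∃ f ∈ modularFunctionFieldFullC k N, f.order ≠ 0 := by
  refine ⟨jqModC k, jqModC_mem_full k N, ?_⟩
  rw [Fermat.Agent.S28.order_jqModC]
  decide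

/-- **the cusp `∞` (the place `q = 0`) of the special fibre** -/
def qPlaceC : Place k ↥(modularFunctionFieldFullC k N) :=
  qPlaceGen k (modularFunctionFieldFullC k N) (exists_order_ne_zero_C k N)

theorem mem_qPlaceC_iff (g : ↥(modularFunctionFieldFullC k N)) :
    g ∈ (qPlaceC k N).toValuationSubring ↔ g = 0 ∨ 0 ≤ (g : LaurentSeries k).order :=
  Iff.rfl

/-- `j` has a pole at `∞` -/
theorem ord_jqModC_qPlaceC_neg :
    (qPlaceC k N).ord (⟨jqModC k, jqModC_mem_full k N⟩ : ↥(modularFunctionFieldFullC k N)) < 0 := by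
  apply ord_neg_of_order_neg
  show (jqModC k).order < 0
  rw [Fermat.Agent.S28.order_jqModC]
  decide

/-- every coefficientwise automorphism fixes `∞` -/
theorem coeffSemilinear_smul_qPlaceC (φ : RingAut k) :
    coeffSemilinear k N φ • qPlaceC k N = qPlaceC k N :=
  smul_qPlaceGen k (modularFunctionFieldFullC k N) (exists_order_ne_zero_C k N)
    (coeffSemilinear k N φ) ((φ : k ≃+* k) : k →+* k) (φ : k ≃+* k).injective
    (fun x => coe_coeffSemilinear_smul k N φ x)

/-- **the arithmetic Frobenius of the special fibre fixes `∞`** -/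
theorem frobAut_smul_qPlaceC (ℓ : ℕ) [Fact ℓ.Prime] [CharP k ℓ] [PerfectRing k ℓ] :
    frobAut k ℓ N • qPlaceC k N = qPlaceC k N :=
  coeffSemilinear_smul_qPlaceC k N (frobeniusEquiv k ℓ)

end SpecialFibre

end Fermat.Agent.GR.W.QPlaceGen
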